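import Mathlib

/-!
# The Hessian pencil of a pair of invariants

For invariants `c`, `d` (`= c₄, c₆`) the curves with invariants `q4 c d x y`, `q6 c d x y` have the
same 3-torsion. The polynomial identities of the pencil and their consequences for the zeros and
prime divisors of `qD`.
-/

set_option autoImplicit false

namespace Fermat.Agent.RT.Two.Twin

variable {R : Type*} [CommRing R]

/-- The discriminant form of the pencil; its dehomogenisation is the third division polynomial. -/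
def qD (c d x y : R) : R :=
  x ^ 4 - 6 * c * x ^ 2 * y ^ 2 - 8 * d * x * y ^ 3 - 3 * c ^ 2 * y ^ 4

/-- One quarter of the derivative of `qD` in `x`. -/
def qDx (c d x y : R) : R :=
  x ^ 3 - 3 * c * x * y ^ 2 - 2 * d * y ^ 3

/-- The covariant of degree four. -/
def q4 (c d x y : R) : R :=
  c * x ^ 4 + 4 * d * x ^ 3 * y + 6 * c ^ 2 * x ^ 2 * y ^ 2 + 4 * c * d * x * y ^ 3
    - (3 * c ^ 3 - 4 * d ^ 2) * y ^ 4

/-- The covariant of degree six. -/
def q6 (c d x y : R) : R :=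
  d * x ^ 6 + 6 * c ^ 2 * x ^ 5 * y + 15 * c * d * x ^ 4 * y ^ 2 + 20 * d ^ 2 * x ^ 3 * y ^ 3
    + 15 * c ^ 2 * d * x ^ 2 * y ^ 4 + 6 * (3 * c ^ 4 - 2 * c * d ^ 2) * x * y ^ 5
    + (9 * c ^ 3 * d - 8 * d ^ 3) * y ^ 6

/-- The first coordinate of the transported root. -/
def tMove (c d x y t : R) : R :=
  t * x ^ 2 + (t ^ 2 - 3 * c) * x * y + (t ^ 3 - 6 * c * t - 6 * d) * y ^ 2

/-- The factor of the transported ordinate. -/
def yMove (c d x y t : R) : R :=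
  x ^ 3 + t * x ^ 2 * y + (t ^ 2 - 6 * c) * x * y ^ 2 + (t ^ 3 - 6 * c * t - 8 * d) * y ^ 3

theorem q4_cube_sub_q6_sq (c d x y : R) :
    q4 c d x y ^ 3 - q6 c d x y ^ 2 = (c ^ 3 - d ^ 2) * qD c d x y ^ 3 := by
  simp only [q4, q6, qD]; ring

/-- The Hessian of `qD` is `q4`. -/
theorem hessian_eq (c d x y : R) :
    3 * qDx c d x y ^ 2 - 3 * qD c d x y * (x ^ 2 - c * y ^ 2) = 3 * y ^ 2 * q4 c d x y := by
  simp only [q4, qDx, qD]; ring

theorem cubic_move (c d x y t : R) :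
    tMove c d x y t ^ 3 - 3 * q4 c d x y * tMove c d x y t - 2 * q6 c d x y
      = yMove c d x y t ^ 2 * qDx c d t 1
        + qD c d t 1 * (24 * y ^ 6 * c * d + 21 * x * y ^ 5 * c ^ 2 - 8 * x ^ 2 * y ^ 4 * d
          - 9 * x ^ 3 * y ^ 3 * c + x ^ 5 * y + 18 * t * y ^ 6 * c ^ 2 - 8 * t * x * y ^ 5 * d
          - 21 * t * x ^ 2 * y ^ 4 * c + 3 * t * x ^ 4 * y ^ 2 - 9 * t ^ 2 * x * y ^ 5 * c
          + 3 * t ^ 2 * x ^ 3 * y ^ 3 - 3 * t ^ 3 * y ^ 6 * c + 3 * t ^ 3 * x ^ 2 * y ^ 4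
          + t ^ 4 * x * y ^ 5) := by
  simp only [q4, q6, qD, qDx, tMove, yMove]; ring

theorem qD_move (c d x y t : R) :
    qD (q4 c d x y) (q6 c d x y) (tMove c d x y t) 1
      = qD c d t 1 * (-384 * y^8*c*d^2 + 9*y^8*c^4 - 600*x*y^7*c^2*d + 64*x^2*y^6*d^2
        - 234*x^2*y^6*c^3 + 192*x^3*y^5*c*d + 111*x^4*y^4*c^2 - 16*x^5*y^3*d - 18*x^6*y^2*c
        + x^8 - 600*t*y^8*c^2*d + 64*t*x*y^7*d^2 - 504*t*x*y^7*c^3 + 336*t*x^2*y^6*c*d
        + 300*t*x^3*y^5*c^2 - 40*t*x^4*y^4*d - 60*t*x^5*y^3*c + 4*t*x^7*y + 64*t^2*y^8*d^2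
        - 234*t^2*y^8*c^3 + 336*t^2*x*y^7*c*d + 408*t^2*x^2*y^6*c^2 - 64*t^2*x^3*y^5*d
        - 120*t^2*x^4*y^4*c + 10*t^2*x^6*y^2 + 192*t^3*y^8*c*d + 300*t^3*x*y^7*c^2
        - 64*t^3*x^2*y^6*d - 144*t^3*x^3*y^5*c + 16*t^3*x^5*y^3 + 111*t^4*y^8*c^2
        - 40*t^4*x*y^7*d - 120*t^4*x^2*y^6*c + 19*t^4*x^4*y^4 - 16*t^5*y^8*d - 60*t^5*x*y^7*c
        + 16*t^5*x^3*y^5 - 18*t^6*y^8*c + 10*t^6*x^2*y^6 + 4*t^7*x*y^7 + t^8*y^8) := by
  simp only [q4, q6, qD, tMove]; ring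

theorem linear_mul_yMove (c d x y t : R) :
    (x - t * y) * yMove c d x y t = qD c d x y - y ^ 4 * qD c d t 1 := by
  simp only [qD, yMove]; ring

theorem tMove_sub (c d x y t t' : R) :
    tMove c d x y t - tMove c d x y t'
      = (t - t') * (x ^ 2 + (t + t') * x * y + (t ^ 2 + t * t' + t' ^ 2 - 6 * c) * y ^ 2) := by
  simp only [tMove]; ring

theorem map_qD {S : Type*} [CommRing S] (f : R →+* S) (c d x y : R) :
    f (qD c d x y) = qD (f c) (f d) (f x) (f y) := by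
  simp [qD, map_ofNat]

theorem map_qDx {S : Type*} [CommRing S] (f : R →+* S) (c d x y : R) :
    f (qDx c d x y) = qDx (f c) (f d) (f x) (f y) := by
  simp [qDx, map_ofNat]

theorem map_q4 {S : Type*} [CommRing S] (f : R →+* S) (c d x y : R) :
    f (q4 c d x y) = q4 (f c) (f d) (f x) (f y) := by
  simp [q4, map_ofNat]

theorem map_q6 {S : Type*} [CommRing S] (f : R →+* S) (c d x y : R) :
    f (q6 c d x y) = q6 (f c) (f d) (f x) (f y) := by
  simp [q6, map_ofNat]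

theorem qD_smul (r c d x y : R) : qD c d (r * x) (r * y) = r ^ 4 * qD c d x y := by
  simp only [qD]; ring

section Field

variable {K : Type*} [Field K]

/-- Away from `6 (c³ - d²)` the form `qD` has no repeated zero. -/
theorem qDx_ne_zero {c d x y : K} (h2 : (2 : K) ≠ 0) (h3 : (3 : K) ≠ 0) (hcd : c ^ 3 ≠ d ^ 2)
    (h : qD c d x y = 0) (hy : y ≠ 0) : qDx c d x y ≠ 0 := by
  intro hx
  set t := x / y with ht
  have hxt : x = t * y := by rw [ht]; field_simp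
  have e0 : qD c d t 1 = 0 := by
    have : y ^ 4 * qD c d t 1 = 0 := by
      rw [← qD_smul, mul_one, mul_comm y t, ← hxt, h]
    simpa [hy] using this
  have e1 : qDx c d t 1 = 0 := by
    have : y ^ 3 * qDx c d t 1 = 0 := by
      rw [← hx, hxt]; simp only [qDx]; ring
    simpa [hy] using this
  simp only [qD, qDx, one_pow, mul_one] at e0 e1
  have g : c * t ^ 2 + 2 * d * t + c ^ 2 = 0 := by
    have : 3 * (c * t ^ 2 + 2 * d * t + c ^ 2) = 0 := by linear_combination t * e1 - e0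
    simpa [h3] using this
  have k : d * t ^ 2 + 2 * c ^ 2 * t + c * d = 0 := by
    have : 2 * (d * t ^ 2 + 2 * c ^ 2 * t + c * d) = 0 := by linear_combination t * g - c * e1
    simpa [h2] using this
  have z : t = 0 := by
    have hcd' : d ^ 2 - c ^ 3 ≠ 0 := fun h0 => hcd (sub_eq_zero.mp h0).symm
    have : 2 * (d ^ 2 - c ^ 3) * t = 0 := by linear_combination d * g - c * k
    simpa [h2, hcd'] using this
  rw [z] at e1 g
  have hd : d = 0 := by
    have : 2 * d = 0 := by linear_combination -e1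
    simpa [h2] using this
  have hc : c = 0 := by
    have : c ^ 2 = 0 := by linear_combination g
    simpa using this
  exact hcd (by rw [hc, hd]; ring)

theorem q4_ne_zero {c d x y : K} (h2 : (2 : K) ≠ 0) (h3 : (3 : K) ≠ 0) (hcd : c ^ 3 ≠ d ^ 2)
    (h : qD c d x y = 0) (hy : y ≠ 0) : q4 c d x y ≠ 0 := by
  intro h4
  refine qDx_ne_zero h2 h3 hcd h hy ?_
  have := hessian_eq c d x y
  rw [h, h4] at this
  simpa [h3] using this

end Field

/-- A common divisor of `qD` and `y` divides `x ^ 4`. -/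
theorem dvd_pow_four_of_dvd_qD {p c d x y : ℤ} (hD : p ∣ qD c d x y) (hy : p ∣ y) : p ∣ x ^ 4 := by
  have e : x ^ 4 = qD c d x y + y * (6 * c * x ^ 2 * y + 8 * d * x * y ^ 2 + 3 * c ^ 2 * y ^ 3) := by
    simp only [qD]; ring
  rw [e]; exact dvd_add hD (hy.mul_right _)

/-- A prime of `qD` prime to `6 (c³ - d²)` and to `y` does not divide `q4`. -/
theorem not_dvd_q4 {c d x y : ℤ} {q : ℕ} [Fact q.Prime] (h6 : ¬ (q : ℤ) ∣ 6 * (c ^ 3 - d ^ 2))
    (hD : (q : ℤ) ∣ qD c d x y) (hy : ¬ (q : ℤ) ∣ y) : ¬ (q : ℤ) ∣ q4 c d x y := fun h4 => by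
  rw [← ZMod.intCast_zmod_eq_zero_iff_dvd] at h6 hD hy h4
  rw [← eq_intCast (Int.castRingHom (ZMod q)), map_qD] at hD
  rw [← eq_intCast (Int.castRingHom (ZMod q)), map_q4] at h4
  push_cast at h6
  refine q4_ne_zero (fun e => h6 ?_) (fun e => h6 ?_) (fun e => h6 ?_) hD hy h4
  · linear_combination 3 * ((c : ZMod q) ^ 3 - (d : ZMod q) ^ 2) * e
  · linear_combination 2 * ((c : ZMod q) ^ 3 - (d : ZMod q) ^ 2) * e
  · simp only [eq_intCast] at e
    linear_combination 6 * e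

end Fermat.Agent.RT.Two.Twin
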