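import Fermat.Prelude.Def_FLTPrelim_Modularity
import Fermat.Agent.RT.Two.Twin.Forms

/-!
# Local conditions on the parameter at `2`, `3` and the bad primes
-/

set_option autoImplicit false

namespace Fermat.Agent.RT.Two.Twin

theorem congr_forms {n : ℕ} (c d : ℤ) {x x' y y' : ℤ} (hx : (n : ℤ) ∣ x - x') (hy : (n : ℤ) ∣ y - y') :
    (n : ℤ) ∣ qD c d x y - qD c d x' y' ∧ (n : ℤ) ∣ q4 c d x y - q4 c d x' y' ∧
      (n : ℤ) ∣ q6 c d x y - q6 c d x' y' ∧ (n : ℤ) ∣ qDx c d x y - qDx c d x' y' := by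
  have ex : (x : ZMod n) = x' := (ZMod.intCast_eq_intCast_iff_dvd_sub x' x n).mpr hx |>.symm
  have ey : (y : ZMod n) = y' := (ZMod.intCast_eq_intCast_iff_dvd_sub y' y n).mpr hy |>.symm
  refine ⟨?_, ?_, ?_, ?_⟩ <;> rw [← ZMod.intCast_zmod_eq_zero_iff_dvd, Int.cast_sub, sub_eq_zero]
  · simp [qD, ex, ey]
  · simp [q4, ex, ey]
  · simp [q6, ex, ey]
  · simp [qDx, ex, ey]

/-- A system of congruences with pairwise coprime moduli. -/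
theorem exists_crt (S : Finset ℕ) (n : ℕ → ℕ)
    (hS : ∀ a ∈ S, ∀ b ∈ S, a ≠ b → Nat.Coprime (n a) (n b)) (r : ℕ → ℤ) :
    ∃ v : ℤ, ∀ a ∈ S, (n a : ℤ) ∣ v - r a := by
  obtain ⟨v, hv⟩ := Ideal.exists_forall_sub_mem_ideal (I := fun a : S => Ideal.span {(n a : ℤ)})
    (fun a b h => (Ideal.isCoprime_span_singleton_iff _ _).mpr
      (Nat.isCoprime_iff_coprime.mpr (hS a a.2 b b.2 fun e => h (Subtype.ext e)))) (fun a => r a)
  exact ⟨v, fun a ha => Ideal.mem_span_singleton.mp (hv ⟨a, ha⟩)⟩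

theorem exists_mul_add_dvd {a n : ℤ} (h : IsCoprime a n) (b : ℤ) : ∃ z : ℤ, n ∣ z * a + b := by
  obtain ⟨s, t, hst⟩ := h
  exact ⟨-b * s, ⟨b * t, by linear_combination (-b) * hst⟩⟩

theorem padicValInt_eq_one {q : ℕ} [Fact q.Prime] {a : ℤ} (h1 : (q : ℤ) ∣ a)
    (h2 : ¬ (q : ℤ) ^ 2 ∣ a) : padicValInt q a = 1 := by
  have ha : a ≠ 0 := fun e => h2 (e ▸ dvd_zero _)
  have u1 := ((padicValInt_dvd_iff 1 a).mp (by simpa using h1)).resolve_left ha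
  by_contra hne
  exact h2 ((padicValInt_dvd_iff 2 a).mpr (Or.inr (by omega)))

theorem padicValInt_mul_cube {q : ℕ} [Fact q.Prime] {a b : ℤ} (ha : a ≠ 0) (hb : b ≠ 0) :
    padicValInt q (a * b ^ 3) = padicValInt q a + 3 * padicValInt q b := by
  have e : b ^ 3 = b * (b * b) := by ring
  rw [e, padicValInt.mul ha (mul_ne_zero hb (mul_ne_zero hb hb)),
    padicValInt.mul hb (mul_ne_zero hb hb), padicValInt.mul hb hb]
  ring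

/-- What is wanted at an odd prime `q` of the congruence modulus. -/
def GoodAt (W : WeierstrassCurve ℤ) (q : ℕ) (x y : ℤ) : Prop :=
  (¬ (q : ℤ) ∣ x ∨ ¬ (q : ℤ) ∣ y) ∧
    ((q : ℤ) ∣ W.Δ → ¬ (q : ℤ) ∣ q4 W.c₄ W.c₆ x y ∧
      Odd (padicValInt q W.Δ + 3 * padicValInt q (qD W.c₄ W.c₆ x y))) ∧
    (¬ (q : ℤ) ∣ W.Δ → ¬ (q : ℤ) ∣ qD W.c₄ W.c₆ x y) ∧
    (q = 3 → ∃ B : ℤ, (3 : ℤ) ∣ B ^ 2 - q4 W.c₄ W.c₆ x y ∧
      (27 : ℤ) ∣ 2 * q6 W.c₄ W.c₆ x y - B ^ 3 + 3 * B * q4 W.c₄ W.c₆ x y)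

theorem three_adic_of_unit {F4 F6 : ℤ} (h : ¬ (3 : ℤ) ∣ F4) (hr : (27 : ℤ) ∣ F4 ^ 3 - F6 ^ 2) :
    ∃ B : ℤ, (3 : ℤ) ∣ B ^ 2 - F4 ∧ (27 : ℤ) ∣ 2 * F6 - B ^ 3 + 3 * B * F4 := by
  have hco : IsCoprime F4 (27 : ℤ) := by
    rw [show (27 : ℤ) = 3 ^ 3 by norm_num]
    exact ((Int.prime_three.coprime_iff_not_dvd.mpr h).symm).pow_right
  obtain ⟨B, hB⟩ := exists_mul_add_dvd hco F6
  have h2 : (27 : ℤ) ∣ B ^ 2 - F4 := by
    refine (hco.symm.pow_right (n := 2)).dvd_of_dvd_mul_left ?_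
    rw [show F4 ^ 2 * (B ^ 2 - F4) = (B * F4 + F6) * (B * F4 - F6) - (F4 ^ 3 - F6 ^ 2) by ring]
    exact dvd_sub (hB.mul_right _) hr
  refine ⟨B, (by norm_num : (3 : ℤ) ∣ 27).trans h2, ?_⟩
  rw [show 2 * F6 - B ^ 3 + 3 * B * F4 = 2 * (B * F4 + F6) - B * (B ^ 2 - F4) by ring]
  exact dvd_sub (hB.mul_left _) (h2.mul_left _)

theorem not_dvd_of_congr {q a b : ℤ} (h : q ∣ a - b) (hb : ¬ q ∣ b) : ¬ q ∣ a := fun ha =>
  hb (by simpa using dvd_sub ha h)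

theorem exists_residue (W : WeierstrassCurve ℤ) (hW : W.IsSemistableModel) {q : ℕ}
    (hq : q.Prime) (hq2 : q ≠ 2) :
    ∃ r₁ r₂ : ℤ, ∀ x y : ℤ, ((q ^ 3 : ℕ) : ℤ) ∣ x - r₁ → ((q ^ 3 : ℕ) : ℤ) ∣ y - r₂ →
      GoodAt W q x y := by
  have : Fact q.Prime := ⟨hq⟩
  have hqz := Nat.prime_iff_prime_int.mp hq
  have hq0 : ((q : ℕ) : ℤ) ≠ 0 := by exact_mod_cast hq.ne_zero
  have hdq : (q : ℤ) ∣ ((q ^ 3 : ℕ) : ℤ) := by exact_mod_cast dvd_pow_self q (by norm_num)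
  by_cases hev : (q : ℤ) ∣ W.Δ ∧ Even (padicValInt q W.Δ)
  · obtain ⟨hqΔ, hev⟩ := hev
    set c := W.c₄ with hc
    set d := W.c₆ with hd
    have hqc : ¬ (q : ℤ) ∣ c := hW q hq hqΔ
    have hcd : (q : ℤ) ∣ c ^ 3 - d ^ 2 := by rw [hc, hd, ← W.c_relation]; exact hqΔ.mul_left _
    obtain ⟨a', ha'⟩ := exists_mul_add_dvd (hqz.coprime_iff_not_dvd.mpr hqc).symm (-d)
    -- `c ≡ a'²` and `d ≡ a'³`
    have hc2 : (q : ℤ) ∣ a' ^ 2 - c := by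
      refine ((hqz.coprime_iff_not_dvd.mpr hqc).pow_right (n := 2)).dvd_of_dvd_mul_left ?_
      rw [show c ^ 2 * (a' ^ 2 - c) = (a' * c + -d) * (a' * c + d) - (c ^ 3 - d ^ 2) by ring]
      exact dvd_sub (ha'.mul_right _) hcd
    have hd2 : (q : ℤ) ∣ a' ^ 3 - d := by
      rw [show a' ^ 3 - d = (a' * c + -d) + a' * (a' ^ 2 - c) by ring]
      exact dvd_add ha' (hc2.mul_left _)
    have ec : ((a' : ZMod q)) ^ 2 = c := sub_eq_zero.mp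
      (by exact_mod_cast (ZMod.intCast_zmod_eq_zero_iff_dvd _ q).mpr hc2)
    have ed : ((a' : ZMod q)) ^ 3 = d := sub_eq_zero.mp
      (by exact_mod_cast (ZMod.intCast_zmod_eq_zero_iff_dvd _ q).mpr hd2)
    have hc0 : (c : ZMod q) ≠ 0 := fun e => hqc ((ZMod.intCast_zmod_eq_zero_iff_dvd _ q).mp e)
    have ha0 : (a' : ZMod q) ≠ 0 := fun e => hc0 (by rw [← ec, e]; ring)
    have h2 : (2 : ZMod q) ≠ 0 := fun e => by
      have := (ZMod.natCast_eq_zero_iff 2 q).mp (by exact_mod_cast e) 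
      exact hq2 ((Nat.prime_dvd_prime_iff_eq hq Nat.prime_two).mp this)
    have e0 : (q : ℤ) ∣ qD c d (3 * a') 1 := by
      rw [← ZMod.intCast_zmod_eq_zero_iff_dvd, ← eq_intCast (Int.castRingHom (ZMod q)), map_qD]
      simp only [eq_intCast, qD, Int.cast_mul, Int.cast_ofNat, Int.cast_one, ← ec, ← ed]
      ring
    have e1 : ¬ (q : ℤ) ∣ qDx c d (3 * a') 1 := by
      rw [← ZMod.intCast_zmod_eq_zero_iff_dvd, ← eq_intCast (Int.castRingHom (ZMod q)), map_qDx]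
      simp only [eq_intCast, qDx, Int.cast_mul, Int.cast_ofNat, Int.cast_one, ← ec, ← ed]
      ring_nf
      exact mul_ne_zero (pow_ne_zero _ ha0) (by
        rw [show (16 : ZMod q) = 2 ^ 4 by norm_num]; exact pow_ne_zero _ h2)
    have e4 : ¬ (q : ℤ) ∣ q4 c d (3 * a') 1 := by
      rw [← ZMod.intCast_zmod_eq_zero_iff_dvd, ← eq_intCast (Int.castRingHom (ZMod q)), map_q4]
      simp only [eq_intCast, q4, Int.cast_mul, Int.cast_ofNat, Int.cast_one, ← ec, ← ed]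
      ring_nf
      exact mul_ne_zero (pow_ne_zero _ ha0) (by
        rw [show (256 : ZMod q) = 2 ^ 8 by norm_num]; exact pow_ne_zero _ h2)
    obtain ⟨ρ, hρ, hρ2⟩ : ∃ ρ : ℤ, (q : ℤ) ∣ ρ - 3 * a' ∧ ¬ (q : ℤ) ^ 2 ∣ qD c d ρ 1 := by
      by_cases h : (q : ℤ) ^ 2 ∣ qD c d (3 * a') 1
      · refine ⟨3 * a' + q, ⟨1, by ring⟩, fun h' => e1 ?_⟩
        have e : qD c d (3 * a' + q) 1 - qD c d (3 * a') 1 - 4 * (q : ℤ) * qDx c d (3 * a') 1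
            = (q : ℤ) ^ 2 * (6 * (3 * a') ^ 2 + 4 * (3 * a') * q + (q : ℤ) ^ 2 - 6 * c) := by
          simp only [qD, qDx]; ring
        have h4 : (q : ℤ) * q ∣ (q : ℤ) * (4 * qDx c d (3 * a') 1) := by
          rw [← sq, show (q : ℤ) * (4 * qDx c d (3 * a') 1)
            = qD c d (3 * a' + q) 1 - qD c d (3 * a') 1
              - (qD c d (3 * a' + q) 1 - qD c d (3 * a') 1 - 4 * (q : ℤ) * qDx c d (3 * a') 1) by
              ring, e]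
          exact dvd_sub (dvd_sub h' h) (dvd_mul_right _ _)
        refine (hqz.dvd_mul.mp ((mul_dvd_mul_iff_left hq0).mp h4)).resolve_left fun h22 => ?_
        have : q ∣ 2 ^ 2 := by exact_mod_cast h22
        exact hq2 ((Nat.prime_dvd_prime_iff_eq hq Nat.prime_two).mp (hq.dvd_of_dvd_pow this))
      · exact ⟨3 * a', by simp, h⟩
    have hρ1 : (q : ℤ) ∣ qD c d ρ 1 := by
      have := (congr_forms c d hρ (show (q : ℤ) ∣ 1 - 1 by simp)).1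
      simpa using dvd_add this e0
    have hρ4 : ¬ (q : ℤ) ∣ q4 c d ρ 1 :=
      not_dvd_of_congr (congr_forms c d hρ (show (q : ℤ) ∣ 1 - 1 by simp)).2.1 e4
    refine ⟨ρ, 1, fun x y hx hy => ?_⟩
    obtain ⟨k1, -, -, -⟩ := congr_forms c d hx hy
    have k4 := (congr_forms c d (hdq.trans hx) (hdq.trans hy)).2.1
    have h1 : (q : ℤ) ∣ qD c d x y := by simpa using dvd_add (hdq.trans k1) hρ1
    have h2' : ¬ (q : ℤ) ^ 2 ∣ qD c d x y := fun h => hρ2 (by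
      have : (q : ℤ) ^ 2 ∣ ((q ^ 3 : ℕ) : ℤ) := by exact_mod_cast pow_dvd_pow q (by norm_num)
      simpa using dvd_sub h (this.trans k1))
    have hy1 : ¬ (q : ℤ) ∣ y := not_dvd_of_congr (hdq.trans hy) fun h =>
      hqz.not_isUnit (isUnit_of_dvd_one h)
    have hF4 : ¬ (q : ℤ) ∣ q4 c d x y := not_dvd_of_congr k4 hρ4
    refine ⟨Or.inr hy1, fun _ => ⟨hF4, ?_⟩, fun h => absurd hqΔ h, fun h3 => ?_⟩
    · rw [padicValInt_eq_one h1 h2', mul_one]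
      exact hev.add_odd (by decide)
    · subst h3
      refine three_adic_of_unit hF4 ?_
      rw [q4_cube_sub_q6_sq, ← W.c_relation]
      exact (show (27 : ℤ) ∣ 1728 * W.Δ * qD c d x y ^ 3 from
        ⟨64 * W.Δ * qD c d x y ^ 3, by ring⟩)
  · refine ⟨1, 0, fun x y hx hy => ?_⟩
    obtain ⟨k1, k4, k6, -⟩ := congr_forms W.c₄ W.c₆ hx hy
    have b1 : qD W.c₄ W.c₆ 1 0 = 1 := by simp [qD]
    have b4 : q4 W.c₄ W.c₆ 1 0 = W.c₄ := by simp [q4]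
    have b6 : q6 W.c₄ W.c₆ 1 0 = W.c₆ := by simp [q6]
    rw [b1] at k1
    rw [b4] at k4
    rw [b6] at k6
    have hone : ¬ (q : ℤ) ∣ 1 := fun h => hqz.not_isUnit (isUnit_of_dvd_one h)
    have hD : ¬ (q : ℤ) ∣ qD W.c₄ W.c₆ x y := not_dvd_of_congr (hdq.trans k1) hone
    refine ⟨Or.inl (not_dvd_of_congr (hdq.trans hx) hone), fun hqΔ => ⟨?_, ?_⟩, fun _ => hD,
      fun h3 => ⟨W.b₂, ?_, ?_⟩⟩
    · exact not_dvd_of_congr (hdq.trans k4) (hW q hq hqΔ)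
    · rw [padicValInt.eq_zero_of_not_dvd hD, mul_zero, add_zero]
      exact Nat.not_even_iff_odd.mp fun h => hev ⟨hqΔ, h⟩
    · subst h3
      rw [show W.b₂ ^ 2 - q4 W.c₄ W.c₆ x y = (W.b₂ ^ 2 - W.c₄) - (q4 W.c₄ W.c₆ x y - W.c₄) by ring]
      refine dvd_sub ⟨8 * W.b₄, ?_⟩ (hdq.trans k4)
      simp only [WeierstrassCurve.c₄]; ring
    · subst h3
      have k4' : (27 : ℤ) ∣ q4 W.c₄ W.c₆ x y - W.c₄ := by simpa using k4
      have k6' : (27 : ℤ) ∣ q6 W.c₄ W.c₆ x y - W.c₆ := by simpa using k6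
      rw [show 2 * q6 W.c₄ W.c₆ x y - W.b₂ ^ 3 + 3 * W.b₂ * q4 W.c₄ W.c₆ x y
        = 2 * (q6 W.c₄ W.c₆ x y - W.c₆) + 3 * W.b₂ * (q4 W.c₄ W.c₆ x y - W.c₄)
          + 27 * (-16 * W.b₆) by simp only [WeierstrassCurve.c₄, WeierstrassCurve.c₆]; ring]
      exact dvd_add (dvd_add (k6'.mul_left _) (k4'.mul_left _)) (dvd_mul_right _ _)

/-- The invariants of a multiplicative model at `2`, modulo `4`. -/
theorem c_mod_four (W : WeierstrassCurve ℤ) (hc : ¬ (2 : ℤ) ∣ W.c₄) :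
    W.c₄ % 4 = 1 ∧ W.c₆ % 4 = 3 := by
  have hb : ¬ (2 : ℤ) ∣ W.b₂ := fun h => hc (by
    simp only [WeierstrassCurve.c₄]
    exact dvd_sub (h.trans (dvd_pow_self _ two_ne_zero)) ((by norm_num : (2:ℤ) ∣ 24).mul_right _))
  obtain ⟨t, ht⟩ : (4 : ℤ) ∣ W.b₂ - 1 := by
    simp only [WeierstrassCurve.b₂] at hb ⊢
    have ha : W.a₁ % 2 = 1 := by
      by_contra h
      exact hb (dvd_add ((Int.dvd_of_emod_eq_zero (by omega)).trans (dvd_pow_self _ two_ne_zero))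
        ((by norm_num : (2:ℤ) ∣ 4).mul_right _))
    obtain ⟨s, hs⟩ : ∃ s, W.a₁ = 2 * s + 1 := ⟨W.a₁ / 2, by omega⟩
    exact ⟨s * s + s + W.a₂, by rw [hs]; ring⟩
  have hb' : W.b₂ = 4 * t + 1 := by linarith
  constructor
  · have e : W.c₄ = 1 + 4 * (4 * t * t + 2 * t - 6 * W.b₄) := by
      simp only [WeierstrassCurve.c₄, hb']; ring
    omega
  · have e : W.c₆ = -1 + 4 * (-16 * t ^ 3 - 12 * t ^ 2 - 3 * t + 9 * (4 * t + 1) * W.b₄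
        - 54 * W.b₆) := by
      simp only [WeierstrassCurve.c₆, hb']; ring
    omega

/-- The condition at `2`: the scaled invariants of a supersingular good model. -/
theorem two_adic {c d e x y : ℤ} {k : ℕ} (hc : c % 4 = 1) (hd : d % 4 = 3) (he : ¬ (2 : ℤ) ∣ e)
    (hy : ¬ (2 : ℤ) ∣ y) (hcd : c ^ 3 - d ^ 2 = 2 ^ (3 * k + 6) * e)
    (hX : (2 : ℤ) ^ (k + 3) ∣ c * x + d * y) :
    ∃ C4 C6 : ℤ, q4 c d x y = 2 ^ (4 * k + 12) * C4 ∧ q6 c d x y = 2 ^ (6 * k + 15) * C6 ∧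
      C6 % 4 = 1 := by
  obtain ⟨r, hr⟩ := hX
  have hco : ∀ i n : ℕ, IsCoprime ((2 : ℤ) ^ n) (c ^ i) := fun i n =>
    (IsCoprime.pow_left (Int.prime_two.coprime_iff_not_dvd.mpr (by omega))).pow_right
  set P : ℤ := 2 ^ k with hP
  have hP3 : (2 : ℤ) ^ (3 * k + 6) = 64 * P ^ 3 := by rw [hP, ← pow_mul, pow_add]; ring
  have hX' : c * x + d * y = 8 * P * r := by rw [hr, hP, pow_add]; ring
  rw [hP3] at hcd
  have e4 : c ^ 4 * q4 c d x y = 4096 * P ^ 4 *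
      (c * r ^ 4 + 6 * c * e * r ^ 2 * y ^ 2 * P - c * d * e * r * y ^ 3
        - 3 * c * e ^ 2 * y ^ 4 * P ^ 2) := by
    have : c ^ 4 * q4 c d x y = c * (c * x + d * y) ^ 4
        + 6 * c * (c ^ 3 - d ^ 2) * (c * x + d * y) ^ 2 * y ^ 2
        - 8 * c * d * (c ^ 3 - d ^ 2) * (c * x + d * y) * y ^ 3
        - 3 * c * (c ^ 3 - d ^ 2) ^ 2 * y ^ 4 := by simp only [q4]; ring
    rw [this, hX', hcd]; ring
  obtain ⟨g, hg⟩ : (2 : ℤ) ∣ d ^ 2 - 3 * c ^ 3 := by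
    obtain ⟨c', rfl⟩ : ∃ c', c = 4 * c' + 1 := ⟨c / 4, by omega⟩
    obtain ⟨d', rfl⟩ : ∃ d', d = 4 * d' + 3 := ⟨d / 4, by omega⟩
    exact ⟨8 * d' ^ 2 + 12 * d' + 3 - 96 * c' ^ 3 - 72 * c' ^ 2 - 18 * c', by ring⟩
  set Q : ℤ := -3 * e ^ 2 * g * r * y ^ 5 * P + 30 * d * e ^ 2 * r ^ 2 * y ^ 4 * P ^ 2
    + 5 * d ^ 2 * e * r ^ 3 * y ^ 3 - 30 * d * e * r ^ 4 * y ^ 2 * P
    + 96 * e * r ^ 5 * y * P ^ 2 + 2 * d * r ^ 6 with hQ
  have e6 : c ^ 6 * q6 c d x y = 32768 * P ^ 6 *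
      (-d * e ^ 2 * y ^ 6 * (c ^ 3 + 8 * P ^ 3 * e) + 4 * Q) := by
    have : c ^ 6 * q6 c d x y = -(c ^ 3 - d ^ 2) ^ 2 * d * (8 * c ^ 3 + (c ^ 3 - d ^ 2)) * y ^ 6
        - 6 * (c ^ 3 - d ^ 2) ^ 2 * (d ^ 2 - 3 * c ^ 3) * (c * x + d * y) * y ^ 5
        + 15 * d * (c ^ 3 - d ^ 2) ^ 2 * (c * x + d * y) ^ 2 * y ^ 4
        + 20 * d ^ 2 * (c ^ 3 - d ^ 2) * (c * x + d * y) ^ 3 * y ^ 3
        - 15 * d * (c ^ 3 - d ^ 2) * (c * x + d * y) ^ 4 * y ^ 2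
        + 6 * (c ^ 3 - d ^ 2) * (c * x + d * y) ^ 5 * y + d * (c * x + d * y) ^ 6 := by
      simp only [q6]; ring
    rw [this, hX', hcd, hg, hQ]; ring
  have p4 : (2 : ℤ) ^ (4 * k + 12) = 4096 * P ^ 4 := by rw [hP, ← pow_mul, pow_add]; ring
  have p6 : (2 : ℤ) ^ (6 * k + 15) = 32768 * P ^ 6 := by rw [hP, ← pow_mul, pow_add]; ring
  obtain ⟨C4, hC4⟩ : (2 : ℤ) ^ (4 * k + 12) ∣ q4 c d x y :=
    (hco 4 _).dvd_of_dvd_mul_left ⟨_, by rw [p4, e4]⟩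
  obtain ⟨C6, hC6⟩ : (2 : ℤ) ^ (6 * k + 15) ∣ q6 c d x y :=
    (hco 6 _).dvd_of_dvd_mul_left ⟨_, by rw [p6, e6]⟩
  refine ⟨C4, C6, hC4, hC6, ?_⟩
  rw [hC6, p6] at e6
  have hne : (32768 : ℤ) * P ^ 6 ≠ 0 := by positivity
  have e6' : c ^ 6 * C6 = -d * e ^ 2 * y ^ 6 * (c ^ 3 + 8 * P ^ 3 * e) + 4 * Q :=
    mul_left_cancel₀ hne (by linear_combination e6)
  have h4 := congrArg (fun z : ℤ => (z : ZMod 4)) e6'
  push_cast at h4
  have ec : (c : ZMod 4) = 1 := by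
    rw [← Int.cast_one, ZMod.intCast_eq_intCast_iff']; omega
  have ed : (d : ZMod 4) = -1 := by
    rw [← Int.cast_one, ← Int.cast_neg, ZMod.intCast_eq_intCast_iff']; omega
  have esq : ∀ z : ℤ, ¬ (2 : ℤ) ∣ z → (z : ZMod 4) ^ 2 = 1 := by
    intro z hz
    obtain ⟨w, rfl⟩ : ∃ w, z = 2 * w + 1 := ⟨z / 2, by omega⟩
    push_cast
    linear_combination ((w : ZMod 4) ^ 2 + w) * (by decide : (4 : ZMod 4) = 0)
  have ey : (y : ZMod 4) ^ 6 = 1 := by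
    rw [show (y : ZMod 4) ^ 6 = ((y : ZMod 4) ^ 2) ^ 3 by ring, esq y hy, one_pow]
  rw [ec, ed, esq e he, ey] at h4
  have h8 : (8 : ZMod 4) = 0 := by decide
  have h44 : (4 : ZMod 4) = 0 := by decide
  rw [h8, h44] at h4
  simp only [one_pow, one_mul, neg_neg, mul_one, zero_mul, add_zero] at h4
  rw [← Int.cast_one, ZMod.intCast_eq_intCast_iff'] at h4
  omega

end Fermat.Agent.RT.Two.Twin
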