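import Fermat.Agent.RT.Two.Twin.Count

/-!
# A value of `qD` without large square factors, in a congruence class and with prescribed sign
-/

set_option autoImplicit false

namespace Fermat.Agent.RT.Two.Twin

open Finset

theorem lineAt_bounds {v y A : ℤ} {M L K : ℕ} (hv : 0 ≤ v) (hv' : v < (M : ℤ)) (hA : 0 ≤ A)
    (hA' : A ≤ (K : ℤ) * L) (hy : A ≤ y) (hy' : y < A + L) :
    0 ≤ lineAt v M y ∧ lineAt v M y < ((M * (K + 1) * L : ℕ) : ℤ) := by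
  have hy0 : 0 ≤ y := hA.trans hy
  refine ⟨by simp only [lineAt]; positivity, ?_⟩
  have h1 : (M : ℤ) * (y + 1) ≤ M * ((K : ℤ) * L + L) :=
    mul_le_mul_of_nonneg_left (by linarith) (Nat.cast_nonneg M)
  simp only [lineAt]
  push_cast
  nlinarith

theorem lineAt_narrow {v w y z : ℤ} {M L K : ℕ} (hv' : v < (M : ℤ)) (hw : 0 ≤ w) (hM : 0 < M)
    (hL : 0 < L) (hK : 0 < K) (hy : y < L) (hz : (K : ℤ) * L ≤ z) :
    (K : ℤ) * lineAt v M y ≤ lineAt w M z ∧ 0 < lineAt w M z := by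
  have hK0 : (0 : ℤ) ≤ K := Nat.cast_nonneg K
  have hM0 : (0 : ℤ) ≤ M := Nat.cast_nonneg M
  have h1 : (M : ℤ) * (y + 1) ≤ M * L := mul_le_mul_of_nonneg_left (by omega) hM0
  have h2 : (M : ℤ) * ((K : ℤ) * L) ≤ M * z := mul_le_mul_of_nonneg_left hz hM0
  have h3 : (0 : ℤ) < M * ((K : ℤ) * L) := by positivity
  simp only [lineAt]
  refine ⟨?_, by linarith⟩
  have h4 : v + (M : ℤ) * y ≤ M * L := by nlinarith
  calc (K : ℤ) * (v + M * y) ≤ K * (M * L) := mul_le_mul_of_nonneg_left h4 hK0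
    _ = M * ((K : ℤ) * L) := by ring
    _ ≤ w + M * z := by linarith

/-- The numerical contradiction. -/
theorem count_contra {K W j m q L H : ℕ} {sig : ℝ} (hK : 0 < K) (hW : 0 < W)
    (hL : L = j * j) (hH : H = W * L)
    (hm : m = 32 * K * W ^ 2) (hj : j = 8 * (2 * W + 160 * K * W ^ 2 + 4 * (4 ^ m + 1)))
    (hq : q * m ≤ K * H ^ 2 + m * (4 ^ m + 1)) (hsig : (2 + 360 * (K : ℝ)) * sig ≤ 1 / 4)
    (h : ((L * L : ℕ) : ℝ) ≤ (2 * (L : ℝ) ^ 2 * sig + 2 * H)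
      + (360 * K * (L : ℝ) ^ 2 * sig + 40 * K * (2 * H * (2 * W * j)) + 4 * (q : ℝ))) : False := by
  have hmR : (0 : ℝ) < m := by rw [hm]; positivity
  have hqR : (q : ℝ) * m ≤ K * (H : ℝ) ^ 2 + m * (4 ^ m + 1) := by exact_mod_cast hq
  set E : ℝ := (4 : ℝ) ^ m + 1 with hE
  have hE0 : 0 ≤ E := by positivity
  have ejN : (j : ℝ) = 8 * (2 * W + 160 * K * (W : ℝ) ^ 2 + 4 * E) := by
    rw [hE, hj]; push_cast; ring
  have hWR : (1 : ℝ) ≤ W := by exact_mod_cast hW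
  have hKR : (1 : ℝ) ≤ K := by exact_mod_cast hK
  have hj1 : (1 : ℝ) ≤ j := by rw [ejN]; nlinarith
  have hmq : (m : ℝ) = 32 * K * (W : ℝ) ^ 2 := by rw [hm]; push_cast; ring
  set t : ℝ := (j : ℝ) ^ 4 with ht
  have hLR : (L : ℝ) ^ 2 = t := by rw [ht, hL]; push_cast; ring
  have hHR : (H : ℝ) ^ 2 = (W : ℝ) ^ 2 * t := by rw [hH, ← hLR]; push_cast; ring
  have eq4 : (q : ℝ) * 4 ≤ t / 8 + 4 * E := by
    refine le_of_mul_le_mul_right ?_ hmR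
    have : (K : ℝ) * (H : ℝ) ^ 2 * 4 = t / 8 * m := by rw [hHR, hmq]; ring
    linarith
  have hH1 : (2 : ℝ) * H = 2 * W * ((j : ℝ) * j) := by rw [hH, hL]; push_cast; ring
  have hH3 : (40 : ℝ) * K * (2 * H * (2 * W * j)) = 160 * K * (W : ℝ) ^ 2 * (j : ℝ) ^ 3 := by
    rw [hH, hL]; push_cast; ring
  have j3 : (1 : ℝ) ≤ (j : ℝ) ^ 3 := one_le_pow₀ hj1
  have j2 : (j : ℝ) * j ≤ (j : ℝ) ^ 3 := by nlinarith
  have key : 2 * (W : ℝ) * ((j : ℝ) * j) + 160 * K * (W : ℝ) ^ 2 * (j : ℝ) ^ 3 + 4 * E ≤ t / 8 := by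
    have b1 := mul_le_mul_of_nonneg_left j2 (by positivity : (0 : ℝ) ≤ 2 * W)
    have b2 := mul_le_mul_of_nonneg_left j3 (by positivity : (0 : ℝ) ≤ 4 * E)
    have e : t / 8 = (2 * (W : ℝ) + 160 * K * (W : ℝ) ^ 2 + 4 * E) * (j : ℝ) ^ 3 := by
      rw [ht, pow_succ' (j : ℝ) 3]; nth_rewrite 1 [ejN]; ring
    rw [e]; linarith
  have hsigL : (2 + 360 * (K : ℝ)) * sig * t ≤ t / 4 :=
    (mul_le_mul_of_nonneg_right hsig (by positivity)).trans_eq (by ring)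
  have hsplit : 2 * t * sig + 360 * K * t * sig = (2 + 360 * (K : ℝ)) * sig * t := by ring
  have hpos : 0 < t := by positivity
  rw [Nat.cast_mul, ← sq, hLR, hH3, hH1] at h
  linarith

/-- For a suitable `ξ`, every admissible congruence class contains a point whose value has no
square factor beyond `ξ`, with either sign. -/
theorem exists_value (c d : ℤ) (hc : c ≠ 0) (hcd : c ^ 3 ≠ d ^ 2)
    (hD : ∀ x y : ℤ, qD c d x y = 0 → x = 0 ∧ y = 0) :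
    ∃ ξ : ℕ, (6 * (c ^ 3 - d ^ 2)).natAbs ≤ ξ ∧ ∀ (M : ℕ) (v₁ v₂ : ℤ), 0 < M →
      (∀ p : ℕ, p.Prime → p ≤ ξ → p ∣ M ∧ ¬((p : ℤ) ∣ v₁ ∧ (p : ℤ) ∣ v₂)) →
      (∀ p : ℕ, p.Prime → ξ < p → ¬ p ∣ M) →
      ∀ neg : Prop, ∃ x y : ℤ, (M : ℤ) ∣ x - v₁ ∧ (M : ℤ) ∣ y - v₂ ∧
        (neg → qD c d x y < 0) ∧ (¬ neg → 0 < qD c d x y) ∧
        ∀ p : ℕ, p.Prime → ξ < p → ¬ (p : ℤ) ^ 2 ∣ qD c d x y := by
  classical
  obtain ⟨K, hK, hK0⟩ : ∃ K : ℕ,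
      1 + 6 * c.natAbs + 8 * d.natAbs + 3 * c.natAbs ^ 2 ≤ K ∧ 0 < K :=
    ⟨_, le_rfl, by omega⟩
  obtain ⟨ξ, hξ1, hξ6, hξK⟩ : ∃ ξ : ℕ, (8 * (2 + 360 * K)) ^ 2 ≤ ξ ∧
      (6 * (c ^ 3 - d ^ 2)).natAbs ≤ ξ ∧ K ≤ ξ :=
    ⟨(8 * (2 + 360 * K)) ^ 2 + (6 * (c ^ 3 - d ^ 2)).natAbs + K, by omega, by omega, by omega⟩
  have hξ0 : 0 < ξ := hK0.trans_le hξK
  refine ⟨ξ, hξ6, fun M v₁ v₂ hM hsmall hlarge neg => ?_⟩
  have hMz : (0 : ℤ) < M := by exact_mod_cast hM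
  obtain ⟨w₁, hw₁, w1b, w1b'⟩ : ∃ w : ℤ, (M : ℤ) ∣ w - v₁ ∧ 0 ≤ w ∧ w < (M : ℤ) :=
    ⟨v₁ % M, ⟨-(v₁ / M), by rw [Int.emod_def]; ring⟩, Int.emod_nonneg _ hMz.ne',
      Int.emod_lt_of_pos _ hMz⟩
  obtain ⟨w₂, hw₂, w2b, w2b'⟩ : ∃ w : ℤ, (M : ℤ) ∣ w - v₂ ∧ 0 ≤ w ∧ w < (M : ℤ) :=
    ⟨v₂ % M, ⟨-(v₂ / M), by rw [Int.emod_def]; ring⟩, Int.emod_nonneg _ hMz.ne',
      Int.emod_lt_of_pos _ hMz⟩
  obtain ⟨W, hW⟩ : ∃ W, W = M * (K + 1) := ⟨_, rfl⟩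
  obtain ⟨m, hm⟩ : ∃ m, m = 32 * K * W ^ 2 := ⟨_, rfl⟩
  obtain ⟨j, hj⟩ : ∃ j, j = 8 * (2 * W + 160 * K * W ^ 2 + 4 * (4 ^ m + 1)) := ⟨_, rfl⟩
  obtain ⟨L, hL⟩ : ∃ L, L = j * j := ⟨_, rfl⟩
  obtain ⟨H, hH⟩ : ∃ H, H = W * L := ⟨_, rfl⟩
  have hW0 : 0 < W := hW ▸ Nat.mul_pos hM (by omega)
  have hj0 : 0 < j := by omega
  have hL0 : 0 < L := hL ▸ Nat.mul_pos hj0 hj0
  obtain ⟨A, B, hA, hA', hB, hB', hneg, hpos⟩ : ∃ A B : ℤ, 0 ≤ A ∧ A ≤ (K : ℤ) * L ∧ 0 ≤ B ∧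
      B ≤ (K : ℤ) * L ∧ (neg → A = 0 ∧ B = (K : ℤ) * L) ∧ (¬ neg → A = (K : ℤ) * L ∧ B = 0) := by
    have h0 : (0 : ℤ) ≤ (K : ℤ) * L := by positivity
    by_cases hn : neg
    · exact ⟨0, _, le_rfl, h0, h0, le_rfl, fun _ => ⟨rfl, rfl⟩, fun h => absurd hn h⟩
    · exact ⟨_, 0, h0, le_rfl, le_rfl, h0, fun h => absurd h hn, fun _ => ⟨rfl, rfl⟩⟩
  obtain ⟨box, hbox⟩ : ∃ box : Finset (ℤ × ℤ),
      box = Finset.Ico A (A + L) ×ˢ Finset.Ico B (B + L) := ⟨_, rfl⟩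
  have hmem : ∀ y ∈ box, (A ≤ y.1 ∧ y.1 < A + L) ∧ (B ≤ y.2 ∧ y.2 < B + L) := fun y hy => by
    simpa [hbox] using hy
  have hHW : ((M * (K + 1) * L : ℕ) : ℤ) = (H : ℤ) := by rw [hH, hW]
  have hb1 : ∀ y ∈ box, 0 ≤ lineAt w₁ M y.1 ∧ lineAt w₁ M y.1 < (H : ℤ) := fun y hy => by
    rw [← hHW]; exact lineAt_bounds w1b w1b' hA hA' (hmem y hy).1.1 (hmem y hy).1.2
  have hb2 : ∀ y ∈ box, 0 ≤ lineAt w₂ M y.2 ∧ lineAt w₂ M y.2 < (H : ℤ) := fun y hy => by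
    rw [← hHW]; exact lineAt_bounds w2b w2b' hB hB' (hmem y hy).2.1 (hmem y hy).2.2
  have hs5 : neg → ∀ y ∈ box, qD c d (lineAt w₁ M y.1) (lineAt w₂ M y.2) < 0 := fun hn y hy => by
    obtain ⟨eA, eB⟩ := hneg hn
    obtain ⟨h1, h2⟩ := lineAt_narrow (v := w₁) (y := y.1) (z := y.2) (M := M) (L := L) (K := K)
      w1b' w2b hM hL0 hK0 (by have := (hmem y hy).1.2; omega) (eB ▸ (hmem y hy).2.1)
    exact qD_neg_of_narrow hc hK (hb1 y hy).1 h1 h2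
  have hs6 : ¬ neg → ∀ y ∈ box, 0 < qD c d (lineAt w₁ M y.1) (lineAt w₂ M y.2) := fun hn y hy => by
    obtain ⟨eA, eB⟩ := hpos hn
    obtain ⟨h1, h2⟩ := lineAt_narrow (v := w₂) (y := y.2) (z := y.1) (M := M) (L := L) (K := K)
      w2b' w1b hM hL0 hK0 (by have := (hmem y hy).2.2; omega) (eA ▸ (hmem y hy).1.1)
    exact qD_pos_of_narrow hK (hb2 y hy).1 h1 h2
  by_contra hno
  have hbad : ∀ y ∈ box, ∃ p : ℕ, p.Prime ∧ ξ < p ∧
      (p : ℤ) ^ 2 ∣ qD c d (lineAt w₁ M y.1) (lineAt w₂ M y.2) := by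
    intro y hy
    by_contra hp
    refine hno ⟨lineAt w₁ M y.1, lineAt w₂ M y.2, ?_, ?_, fun hn => hs5 hn y hy,
      fun hn => hs6 hn y hy, fun p h1 h2 h3 => hp ⟨p, h1, h2, h3⟩⟩
    · have e : lineAt w₁ M y.1 - v₁ = (w₁ - v₁) + M * y.1 := by simp only [lineAt]; ring
      rw [e]; exact dvd_add hw₁ (dvd_mul_right _ _)
    · have e : lineAt w₂ M y.2 - v₂ = (w₂ - v₂) + M * y.2 := by simp only [lineAt]; ring
      rw [e]; exact dvd_add hw₂ (dvd_mul_right _ _)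
  obtain ⟨G, hG⟩ : ∃ G : ℕ → Finset (ℤ × ℤ), G = fun n : ℕ => box.filter fun y =>
      (n : ℤ) ∣ lineAt w₁ M y.1 ∧ (n : ℤ) ∣ lineAt w₂ M y.2 := ⟨_, rfl⟩
  obtain ⟨S, hS⟩ : ∃ S : ℕ → Finset (ℤ × ℤ), S = fun p : ℕ => box.filter fun y =>
      (p : ℤ) ^ 2 ∣ qD c d (lineAt w₁ M y.1) (lineAt w₂ M y.2) ∧
      IsCoprime (lineAt w₁ M y.1) (lineAt w₂ M y.2) := ⟨_, rfl⟩
  set Q1 := (Ioc ξ H).filter Nat.Prime with hQ1
  set Q2 := (Ioc ξ (K * H ^ 2)).filter Nat.Prime with hQ2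
  have hcover : box ⊆ Q1.biUnion G ∪ Q2.biUnion S := by
    intro y hy
    obtain ⟨p, hp, hξp, hpd⟩ := hbad y hy
    obtain ⟨s1, s3⟩ := hb1 y hy
    obtain ⟨s2, s4⟩ := hb2 y hy
    have hne : qD c d (lineAt w₁ M y.1) (lineAt w₂ M y.2) ≠ 0 := by
      by_cases hn : neg
      · exact (hs5 hn y hy).ne
      · exact (hs6 hn y hy).ne'
    rw [mem_union, mem_biUnion, mem_biUnion]
    by_cases hg : ∃ n : ℕ, n.Prime ∧ (n : ℤ) ∣ lineAt w₁ M y.1 ∧ (n : ℤ) ∣ lineAt w₂ M y.2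
    · obtain ⟨n, hn, n1, n2⟩ := hg
      have hξn : ξ < n := by
        by_contra hle
        obtain ⟨hnM, hnot⟩ := hsmall n hn (not_lt.mp hle)
        have hMn : (n : ℤ) ∣ (M : ℤ) := by exact_mod_cast hnM
        refine hnot ⟨?_, ?_⟩
        · have e : v₁ = lineAt w₁ M y.1 - (w₁ - v₁) - M * y.1 := by simp only [lineAt]; ring
          rw [e]; exact dvd_sub (dvd_sub n1 (hMn.trans hw₁)) (hMn.mul_right _)
        · have e : v₂ = lineAt w₂ M y.2 - (w₂ - v₂) - M * y.2 := by simp only [lineAt]; ring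
          rw [e]; exact dvd_sub (dvd_sub n2 (hMn.trans hw₂)) (hMn.mul_right _)
      refine Or.inl ⟨n, mem_filter.mpr ⟨mem_Ioc.mpr ⟨hξn, ?_⟩, hn⟩,
        by simp only [hG, mem_filter]; exact ⟨hy, n1, n2⟩⟩
      rcases eq_or_lt_of_le s1 with e | e
      · rcases eq_or_lt_of_le s2 with e' | e'
        · exact absurd (by rw [← e, ← e']; simp [qD]) hne
        · exact_mod_cast (Int.le_of_dvd e' n2).trans s4.le
      · exact_mod_cast (Int.le_of_dvd e n1).trans s3.le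
    · refine Or.inr ⟨p, mem_filter.mpr ⟨mem_Ioc.mpr ⟨hξp, ?_⟩, hp⟩,
        by simp only [hS, mem_filter]; refine ⟨hy, hpd, ?_⟩
           rw [Int.isCoprime_iff_gcd_eq_one]
           by_contra hg1
           obtain ⟨n, hn, hnd⟩ := Nat.exists_prime_and_dvd hg1
           exact hg ⟨n, hn, (Int.natCast_dvd_natCast.mpr hnd).trans (Int.gcd_dvd_left _ _),
             (Int.natCast_dvd_natCast.mpr hnd).trans (Int.gcd_dvd_right _ _)⟩⟩
      have h1 := Int.le_of_dvd (abs_pos.mpr hne) ((dvd_abs _ _).mpr hpd)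
      have h2 := abs_qD_le c d (lineAt w₁ M y.1) (lineAt w₂ M y.2) K hK (H : ℤ)
        (by rw [abs_of_nonneg s1]; exact s3.le) (by rw [abs_of_nonneg s2]; exact s4.le)
      have h3 : p ^ 2 ≤ K * H ^ 4 := by exact_mod_cast h1.trans h2
      refine (Nat.pow_le_pow_iff_left two_ne_zero).mp (h3.trans ?_)
      rw [mul_pow, ← pow_mul]
      exact Nat.mul_le_mul_right _ (Nat.le_self_pow two_ne_zero K)
  set sig := ∑ n ∈ Ioc ξ (2 * H), Real.sqrt n / (n : ℝ) ^ 2 with hsig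
  have hsub : ∀ U ⊆ Ioc ξ (2 * H), ∑ n ∈ U, Real.sqrt n / (n : ℝ) ^ 2 ≤ sig := fun U hU =>
    sum_le_sum_of_subset_of_nonneg hU fun _ _ _ => by positivity
  have hne6 : ∀ p : ℕ, ξ < p → ¬ (p : ℤ) ∣ 6 * (c ^ 3 - d ^ 2) := fun p hp e => by
    have h0 : 0 < (6 * (c ^ 3 - d ^ 2)).natAbs :=
      Int.natAbs_pos.mpr (mul_ne_zero (by norm_num) (sub_ne_zero.mpr hcd))
    have := Nat.le_of_dvd h0 (Int.natCast_dvd.mp e)
    omega
  have e1 : (∑ n ∈ Q1, ((G n).card : ℝ)) ≤ 2 * (L : ℝ) ^ 2 * sig + 2 * H := by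
    refine (sum_le_sum (g := fun n : ℕ => 2 * (L : ℝ) ^ 2 * (Real.sqrt n / (n : ℝ) ^ 2) + 2)
      fun n hn => ?_).trans ?_
    · obtain ⟨hni, hnp⟩ := mem_filter.mp hn
      obtain ⟨hξn, -⟩ := mem_Ioc.mp hni
      refine (Nat.cast_le.mpr ?_).trans (congr_bound_real hnp.pos)
      have hco : IsCoprime (n : ℤ) M :=
        (Nat.prime_iff_prime_int.mp hnp).coprime_iff_not_dvd.mpr fun e =>
          hlarge n hnp hξn (Int.natCast_dvd_natCast.mp e)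
      simp only [hG]
      refine card_congr_bound _ A B L n hnp.pos (fun y hy => hmem y (mem_filter.mp hy).1) ?_
      intro y hy y' hy'
      obtain ⟨-, e1, e2⟩ := mem_filter.mp hy
      obtain ⟨-, e1', e2'⟩ := mem_filter.mp hy'
      refine ⟨hco.dvd_of_dvd_mul_left ?_, hco.dvd_of_dvd_mul_left ?_⟩
      · have e : (M : ℤ) * (y.1 - y'.1) = lineAt w₁ M y.1 - lineAt w₁ M y'.1 := by
          simp only [lineAt]; ring
        rw [e]; exact dvd_sub e1 e1'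
      · have e : (M : ℤ) * (y.2 - y'.2) = lineAt w₂ M y.2 - lineAt w₂ M y'.2 := by
          simp only [lineAt]; ring
        rw [e]; exact dvd_sub e2 e2'
    · rw [sum_add_distrib, ← mul_sum, sum_const, nsmul_eq_mul]
      have hc' : (Q1.card : ℝ) ≤ H := by
        exact_mod_cast (card_filter_le _ _).trans (by simp : (Ioc ξ H).card ≤ H)
      refine add_le_add (mul_le_mul_of_nonneg_left
        (hsub _ ((filter_subset _ _).trans (Ioc_subset_Ioc le_rfl (by omega)))) (by positivity)) ?_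
      linarith
  have e2 : (∑ p ∈ Q2, ((S p).card : ℝ)) ≤ 360 * K * (L : ℝ) ^ 2 * sig
      + 40 * K * (2 * H * (2 * W * j)) + 4 * (Q2.card : ℝ) := by
    rw [← sum_filter_add_sum_filter_not Q2 (fun p => p ≤ 2 * H)]
    refine add_le_add
      ((sum_le_sum (g := fun p : ℕ => 360 * K * (L : ℝ) ^ 2 * (Real.sqrt p / (p : ℝ) ^ 2)
        + 40 * K * Real.sqrt p) fun p hp => ?_).trans ?_)
      ((sum_le_sum (g := fun _ => (4 : ℝ)) fun p hp => ?_).trans ?_)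
    · obtain ⟨hpi, hpp⟩ := mem_filter.mp (mem_filter.mp hp).1
      obtain ⟨hξp, -⟩ := mem_Ioc.mp hpi
      refine (Nat.cast_le.mpr ?_).trans (small_bound_real hK0 hpp (by omega))
      simp only [hS]
      exact card_le_of_small hK hD hpp (by omega) (hne6 p hξp) w₁ w₂ M (hlarge p hpp hξp) A B L _
        (fun y hy => hmem y (mem_filter.mp hy).1) (fun y hy => (mem_filter.mp hy).2)
    · rw [sum_add_distrib, ← mul_sum, ← mul_sum]
      refine add_le_add (mul_le_mul_of_nonneg_left (hsub _ fun p hp => ?_) (by positivity))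
        (mul_le_mul_of_nonneg_left ?_ (by positivity))
      · exact mem_Ioc.mpr ⟨(mem_Ioc.mp (mem_filter.mp (mem_filter.mp hp).1).1).1,
          (mem_filter.mp hp).2⟩
      · refine (sum_le_card_nsmul _ _ (2 * W * j : ℝ) fun p hp => ?_).trans ?_
        · rw [Real.sqrt_le_iff]
          refine ⟨by positivity, ?_⟩
          have h1 : p ≤ (2 * W * j) ^ 2 := by
            refine (mem_filter.mp hp).2.trans ?_
            rw [hH, hL]; nlinarith [Nat.mul_le_mul_right (W * (j * j)) (show 1 ≤ W from hW0)]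
          exact_mod_cast h1
        · rw [nsmul_eq_mul]
          refine mul_le_mul_of_nonneg_right ?_ (by positivity)
          have h2 : (Q2.filter fun p => p ≤ 2 * H).card ≤ (Ioc 0 (2 * H)).card :=
            card_le_card fun p hp => mem_Ioc.mpr
              ⟨(mem_filter.mp (mem_filter.mp hp).1).2.pos, (mem_filter.mp hp).2⟩
          rw [Nat.card_Ioc, Nat.sub_zero] at h2
          exact_mod_cast h2
    · obtain ⟨hp2, hle⟩ := mem_filter.mp hp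
      obtain ⟨hpi, hpp⟩ := mem_filter.mp hp2
      obtain ⟨hξp, -⟩ := mem_Ioc.mp hpi
      have h4 : (S p).card ≤ 4 := by
        simp only [hS]
        exact card_le_four_of_large hpp (hne6 p hξp) w₁ w₂ M H hM _ (not_le.mp hle)
          (fun y hy => (mem_filter.mp hy).2)
          (fun y hy => ⟨hb1 y (mem_filter.mp hy).1, hb2 y (mem_filter.mp hy).1⟩)
      exact_mod_cast h4
    · rw [sum_const, nsmul_eq_mul, mul_comm]
      refine mul_le_mul_of_nonneg_left ?_ (by norm_num)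
      exact_mod_cast card_filter_le _ _
  have hq : Q2.card * m ≤ K * H ^ 2 + m * (4 ^ m + 1) :=
    (Nat.mul_le_mul_right m (card_le_card (filter_subset_filter _ fun p hp =>
      mem_Icc.mpr ⟨p.zero_le, (mem_Ioc.mp hp).2⟩))).trans (card_primes_mul_le m _)
  have hsigle : (2 + 360 * (K : ℝ)) * sig ≤ 1 / 4 := by
    have h1 := sum_sqrt_div_sq_le ξ (2 * H) hξ0
    rw [← hsig] at h1
    have hξR : 8 * (2 + 360 * (K : ℝ)) ≤ Real.sqrt ξ :=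
      Real.le_sqrt_of_sq_le (by exact_mod_cast hξ1)
    calc (2 + 360 * (K : ℝ)) * sig ≤ (2 + 360 * (K : ℝ)) * (2 / Real.sqrt ξ) :=
          mul_le_mul_of_nonneg_left h1 (by positivity)
      _ ≤ (2 + 360 * (K : ℝ)) * (2 / (8 * (2 + 360 * (K : ℝ)))) :=
          mul_le_mul_of_nonneg_left (div_le_div_of_nonneg_left (by norm_num) (by positivity) hξR)
            (by positivity)
      _ = 1 / 4 := by field_simp; norm_num
  have hboxcard : box.card = L * L := by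
    rw [hbox, card_product, Int.card_Ico, Int.card_Ico]; simp
  refine count_contra hK0 hW0 hL hH hm hj hq hsigle ?_
  have hcount : ((box.card : ℕ) : ℝ)
      ≤ (∑ n ∈ Q1, ((G n).card : ℝ)) + ∑ p ∈ Q2, ((S p).card : ℝ) := by
    exact_mod_cast (card_le_card hcover).trans ((card_union_le _ _).trans
      (add_le_add card_biUnion_le card_biUnion_le))
  rw [← hboxcard]
  exact hcount.trans (add_le_add e1 e2)

end Fermat.Agent.RT.Two.Twin
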