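import Fermat.Agent.RT.Two.Twin.Galois
import Fermat.Agent.RT.Two.Twin.Value
import Fermat.Agent.RT.Two.Twin.Local

/-!
# A curve with supersingular good reduction at `2` in the Hessian pencil
-/

set_option autoImplicit false

namespace Fermat.Agent.RT.Two.Twin

open WeierstrassCurve

/-- An integral model with given invariants, `a₁ = 0` and `a₃ = 1`. -/
theorem exists_model {F4 F6 C4 C6 B : ℤ} {k : ℕ} (h4 : F4 = 2 ^ (4 * k + 12) * C4)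
    (h6 : F6 = 2 ^ (6 * k + 15) * C6) (hC6 : C6 % 4 = 1) (h3a : (3 : ℤ) ∣ B ^ 2 - F4)
    (h3b : (27 : ℤ) ∣ 2 * F6 - B ^ 3 + 3 * B * F4) :
    ∃ a₂ a₄ a₆ : ℤ, (⟨0, a₂, 1, a₄, a₆⟩ : WeierstrassCurve ℤ).c₄ = 16 * C4 ∧
      (⟨0, a₂, 1, a₄, a₆⟩ : WeierstrassCurve ℤ).c₆ = 8 * C6 := by
  set P : ℤ := 2 ^ k with hP
  have p4 : (2 : ℤ) ^ (4 * k + 12) = 4096 * P ^ 4 := by rw [hP, ← pow_mul, pow_add]; ring
  have p6 : (2 : ℤ) ^ (6 * k + 15) = 32768 * P ^ 6 := by rw [hP, ← pow_mul, pow_add]; ring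
  rw [p4] at h4
  rw [p6] at h6
  have hco27 : ∀ (s n : ℕ), IsCoprime (27 : ℤ) ((2 : ℤ) ^ s * P ^ n) := by
    intro s n
    have h2 : IsCoprime (27 : ℤ) 2 := ⟨1, -13, by norm_num⟩
    exact h2.pow_right.mul_right (by rw [hP, ← pow_mul]; exact h2.pow_right)
  obtain ⟨a₂, ha2⟩ := exists_mul_add_dvd (hco27 6 2).symm (-B)
  have hb : (27 : ℤ) ∣ 2 ^ 6 * P ^ 2 * a₂ - B := by
    rw [show 2 ^ 6 * P ^ 2 * a₂ - B = a₂ * (2 ^ 6 * P ^ 2) + -B by ring]; exact ha2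
  set A : ℤ := 2 ^ 6 * P ^ 2 * a₂ with hA
  obtain ⟨a₄, ha4⟩ : (3 : ℤ) ∣ a₂ ^ 2 - C4 := by
    refine (IsCoprime.of_isCoprime_of_dvd_left (hco27 12 4) (by norm_num)).dvd_of_dvd_mul_left ?_
    rw [show 2 ^ 12 * P ^ 4 * (a₂ ^ 2 - C4) = (A - B) * (A + B) + (B ^ 2 - F4) by
      rw [hA, h4]; ring]
    exact dvd_add (((by norm_num : (3 : ℤ) ∣ 27).trans hb).mul_right _) h3a
  obtain ⟨R, hR⟩ : (27 : ℤ) ∣ 4 * a₂ ^ 3 - 12 * a₂ * C4 - C6 := by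
    refine (hco27 16 6).dvd_of_dvd_mul_left ?_
    rw [show 2 ^ 16 * P ^ 6 * (4 * a₂ ^ 3 - 12 * a₂ * C4 - C6)
      = (A - B) * (A ^ 2 + A * B + B ^ 2 - 3 * F4) - (2 * F6 - B ^ 3 + 3 * B * F4) by
        rw [hA, h4, h6]; ring]
    exact dvd_sub (hb.mul_right _) h3b
  obtain ⟨a₆, ha6⟩ : (4 : ℤ) ∣ R - 1 := by
    have h' : 4 * (a₂ ^ 3 - 3 * a₂ * C4) - C6 = 27 * R := by linarith
    omega
  refine ⟨a₂, a₄, a₆, ?_, ?_⟩
  · simp only [WeierstrassCurve.c₄, WeierstrassCurve.b₂, WeierstrassCurve.b₄]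
    linear_combination 16 * ha4
  · simp only [WeierstrassCurve.c₆, WeierstrassCurve.b₂, WeierstrassCurve.b₄, WeierstrassCurve.b₆]
    linear_combination (-96 * a₂) * ha4 + 8 * hR + 216 * ha6

/-- The twin, from any suitable residue class `(t₁, t₂)` modulo `2 ^ e`. -/
theorem exists_twin_of_datum (W : WeierstrassCurve ℤ) (hW : W.IsSemistableModel) (hΔ : W.Δ ≠ 0)
    (hirr : W.ModRepIsIrreducible 3) (hne4 : W.c₄ ≠ 0) {t₁ t₂ : ℤ} {e j : ℕ} (he : 0 < e)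
    (htwo : ∀ x y : ℤ, (2 : ℤ) ^ e ∣ x - t₁ → (2 : ℤ) ^ e ∣ y - t₂ →
      ¬ ((2 : ℤ) ∣ x ∧ (2 : ℤ) ∣ y) ∧ ∀ B : ℤ, (3 : ℤ) ∣ B ^ 2 - q4 W.c₄ W.c₆ x y →
        (27 : ℤ) ∣ 2 * q6 W.c₄ W.c₆ x y - B ^ 3 + 3 * B * q4 W.c₄ W.c₆ x y →
        ∃ a₂ a₄ a₆ : ℤ,
          ((2 : ℤ) ^ j) ^ 4 * (⟨0, a₂, 1, a₄, a₆⟩ : WeierstrassCurve ℤ).c₄
            = q4 W.c₄ W.c₆ x y ∧
          ((2 : ℤ) ^ j) ^ 6 * (⟨0, a₂, 1, a₄, a₆⟩ : WeierstrassCurve ℤ).c₆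
            = q6 W.c₄ W.c₆ x y) :
    ∃ E : WeierstrassCurve ℤ, E.IsSemistableModel ∧ Even E.a₁ ∧ Odd E.a₃ ∧ E.Δ < 0 ∧
      (∀ q : ℕ, q.Prime → (q : ℤ) ∣ E.Δ → Odd (padicValInt q E.Δ)) ∧
      ∀ ℓ : ℕ, ℓ.Prime → W.IsGoodPrimeFor ℓ → E.IsGoodPrimeFor ℓ → ℓ ≠ 3 →
        (3 : ℤ) ∣ E.apOfModel ℓ - W.apOfModel ℓ := by
  classical
  have hf2 : Fact (Nat.Prime 2) := ⟨Nat.prime_two⟩
  have hcd : W.c₄ ^ 3 ≠ W.c₆ ^ 2 := fun h => hΔ (by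
    have e := W.c_relation; rw [h, sub_self] at e; simpa using e)
  obtain ⟨ξ, hξ, hval⟩ := exists_value W.c₄ W.c₆ hne4 hcd fun x y h => qD_ne_zero_int hΔ hirr h
  have hprime : ∀ q : ℕ, (q : ℤ) ∣ 6 * (W.c₄ ^ 3 - W.c₆ ^ 2) → q ≤ ξ := fun q hq => by
    have h0 : 0 < (6 * (W.c₄ ^ 3 - W.c₆ ^ 2)).natAbs :=
      Int.natAbs_pos.mpr (mul_ne_zero (by norm_num) (sub_ne_zero.mpr hcd))
    exact (Nat.le_of_dvd h0 (Int.natCast_dvd.mp hq)).trans hξ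
  have h3ξ : 3 ≤ ξ := hprime 3 ⟨2 * (W.c₄ ^ 3 - W.c₆ ^ 2), by push_cast; ring⟩
  -- congruence class
  set S := (Finset.Icc 2 ξ).filter Nat.Prime with hS
  set n : ℕ → ℕ := fun q => if q = 2 then 2 ^ e else q ^ 3 with hn
  have hres : ∀ q : ℕ, ∃ r : ℤ × ℤ, q.Prime → q ≠ 2 → ∀ x y : ℤ,
      ((q ^ 3 : ℕ) : ℤ) ∣ x - r.1 → ((q ^ 3 : ℕ) : ℤ) ∣ y - r.2 → GoodAt W q x y := by
    intro q
    by_cases h : q.Prime ∧ q ≠ 2
    · obtain ⟨r₁, r₂, hr⟩ := exists_residue W hW h.1 h.2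
      exact ⟨(r₁, r₂), fun _ _ => hr⟩
    · exact ⟨0, fun h1 h2 => absurd ⟨h1, h2⟩ h⟩
  choose r hr using hres
  have hpp : ∀ a ∈ S, a.Prime ∧ a ≤ ξ := fun a ha => by
    rw [hS, Finset.mem_filter, Finset.mem_Icc] at ha; exact ⟨ha.2, ha.1.2⟩
  have hnpow : ∀ a, ∃ e, 0 < e ∧ n a = a ^ e := fun a => by
    by_cases h : a = 2
    · exact ⟨e, he, by simp [hn, h]⟩
    · exact ⟨3, by norm_num, by simp [hn, h]⟩
  have hcop : ∀ a ∈ S, ∀ b ∈ S, a ≠ b → Nat.Coprime (n a) (n b) := fun a ha b hb hab => by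
    obtain ⟨e, -, he⟩ := hnpow a
    obtain ⟨f, -, hf⟩ := hnpow b
    rw [he, hf]
    exact Nat.Coprime.pow _ _ ((Nat.coprime_primes (hpp a ha).1 (hpp b hb).1).mpr hab)
  obtain ⟨v₁, hv₁⟩ := exists_crt S n hcop fun q => if q = 2 then t₁ else (r q).1
  obtain ⟨v₂, hv₂⟩ := exists_crt S n hcop fun q => if q = 2 then t₂ else (r q).2
  set M := ∏ q ∈ S, n q with hM
  have hM0 : 0 < M := Finset.prod_pos fun q hq => by
    obtain ⟨e, -, he⟩ := hnpow q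
    rw [he]; exact pow_pos (hpp q hq).1.pos e
  have h2S : 2 ∈ S := by
    rw [hS, Finset.mem_filter, Finset.mem_Icc]; exact ⟨⟨le_rfl, by omega⟩, Nat.prime_two⟩
  have hmemS : ∀ q : ℕ, q.Prime → q ≤ ξ → q ∈ S := fun q hq hle => by
    rw [hS, Finset.mem_filter, Finset.mem_Icc]; exact ⟨⟨hq.two_le, hle⟩, hq⟩
  have odd_cond : ∀ q : ℕ, q.Prime → q ≠ 2 → q ∈ S → ∀ x y : ℤ, (M : ℤ) ∣ x - v₁ →
      (M : ℤ) ∣ y - v₂ → GoodAt W q x y := by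
    intro q hq hq2 hqS x y hx hy
    have hd : (n q : ℤ) ∣ (M : ℤ) := Int.natCast_dvd_natCast.mpr (Finset.dvd_prod_of_mem n hqS)
    have en : n q = q ^ 3 := by simp [hn, hq2]
    have e1 := hv₁ q hqS
    have e2 := hv₂ q hqS
    simp only [if_neg hq2] at e1 e2
    rw [en] at hd e1 e2
    refine hr q hq hq2 x y ?_ ?_
    · rw [← sub_add_sub_cancel x v₁]; exact dvd_add (hd.trans hx) e1
    · rw [← sub_add_sub_cancel y v₂]; exact dvd_add (hd.trans hy) e2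
  have two_cond : ∀ x y : ℤ, (M : ℤ) ∣ x - v₁ → (M : ℤ) ∣ y - v₂ →
      (2 : ℤ) ^ e ∣ x - t₁ ∧ (2 : ℤ) ^ e ∣ y - t₂ := by
    intro x y hx hy
    have hd : (n 2 : ℤ) ∣ (M : ℤ) := Int.natCast_dvd_natCast.mpr (Finset.dvd_prod_of_mem n h2S)
    have e1 := hv₁ 2 h2S
    have e2 := hv₂ 2 h2S
    have en : (n 2 : ℤ) = 2 ^ e := by simp [hn]
    simp only at e1 e2
    rw [en] at hd e1 e2
    exact ⟨by rw [← sub_add_sub_cancel x v₁]; exact dvd_add (hd.trans hx) e1,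
      by rw [← sub_add_sub_cancel y v₂]; exact dvd_add (hd.trans hy) e2⟩
  obtain ⟨x, y, hx, hy, hneg, hpos, hsf⟩ := hval M v₁ v₂ hM0
    (fun p hp hle => by
      have hpS := hmemS p hp hle
      obtain ⟨e, he0, he⟩ := hnpow p
      refine ⟨(dvd_pow_self p he0.ne').trans (he ▸ Finset.dvd_prod_of_mem n hpS), fun hboth => ?_⟩
      by_cases hp2 : p = 2
      · subst hp2
        exact (htwo v₁ v₂ (two_cond v₁ v₂ (by simp) (by simp)).1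
          (two_cond v₁ v₂ (by simp) (by simp)).2).1 (by simpa using hboth)
      · rcases (odd_cond p hp hp2 hpS v₁ v₂ (by simp) (by simp)).1 with h | h
        · exact h hboth.1
        · exact h hboth.2)
    (fun p hp hlt h => by
      obtain ⟨q, hqS, hpq⟩ := (hp.prime.dvd_finsetProd_iff _).mp h
      obtain ⟨e, -, he⟩ := hnpow q
      rw [he] at hpq
      have := (Nat.prime_dvd_prime_iff_eq hp (hpp q hqS).1).mp (hp.dvd_of_dvd_pow hpq)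
      have := (hpp q hqS).2
      omega)
    (0 < W.Δ)
  obtain ⟨h2x, h2y⟩ := two_cond x y hx hy
  obtain ⟨B, hB1, hB2⟩ :=
    (odd_cond 3 Nat.prime_three (by norm_num) (hmemS 3 Nat.prime_three h3ξ) x y hx hy).2.2.2 rfl
  obtain ⟨a₂, a₄, a₆, hU4, hU6⟩ := (htwo x y h2x h2y).2 B hB1 hB2
  set E : WeierstrassCurve ℤ := ⟨0, a₂, 1, a₄, a₆⟩ with hE
  set D := qD W.c₄ W.c₆ x y with hD
  set U : ℤ := 2 ^ j with hU
  have hU0 : U ≠ 0 := by rw [hU]; positivity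
  have hrel : U ^ 12 * E.Δ = W.Δ * D ^ 3 := by
    refine mul_left_cancel₀ (show (1728 : ℤ) ≠ 0 by norm_num) ?_
    have e := q4_cube_sub_q6_sq W.c₄ W.c₆ x y
    rw [← W.c_relation, ← hU4, ← hU6, ← hD] at e
    linear_combination e + U ^ 12 * E.c_relation
  have hD0 : D ≠ 0 := by
    by_cases h : 0 < W.Δ
    · exact (hneg h).ne
    · exact (hpos h).ne'
  have hEΔ0 : E.Δ ≠ 0 := fun h => by
    rw [h, mul_zero] at hrel
    exact mul_ne_zero hΔ (pow_ne_zero 3 hD0) hrel.symm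
  have hEodd : ¬ (2 : ℤ) ∣ E.Δ := by
    intro h
    have e : E.Δ = 2 * (-8 * a₂ ^ 2 * (4 * a₂ * a₆ + a₂ - a₄ ^ 2) - 32 * a₄ ^ 3
        - 216 * a₆ ^ 2 - 108 * a₆ - 14 + 36 * a₂ * a₄ * (1 + 4 * a₆)) + 1 := by
      simp only [WeierstrassCurve.Δ, WeierstrassCurve.b₂, WeierstrassCurve.b₄,
        WeierstrassCurve.b₆, WeierstrassCurve.b₈, hE]
      ring
    omega
  have hbad : ∀ q : ℕ, q.Prime → (q : ℤ) ∣ E.Δ →
      ¬ (q : ℤ) ∣ E.c₄ ∧ Odd (padicValInt q E.Δ) := by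
    intro q hq hqE
    have hqf : Fact q.Prime := ⟨hq⟩
    have hqz := Nat.prime_iff_prime_int.mp hq
    have hq2 : q ≠ 2 := fun h => hEodd (by subst h; simpa using hqE)
    have hq2z : ¬ (q : ℤ) ∣ U ^ 12 := fun h => hq2 (by
      have h2 : q ∣ 2 := by exact_mod_cast hqz.dvd_of_dvd_pow (hqz.dvd_of_dvd_pow h)
      exact (Nat.prime_dvd_prime_iff_eq hq Nat.prime_two).mp h2)
    have hval : padicValInt q E.Δ = padicValInt q W.Δ + 3 * padicValInt q D := by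
      rw [← padicValInt_mul_cube hΔ hD0, ← hrel, padicValInt.mul (pow_ne_zero _ hU0) hEΔ0,
        padicValInt.eq_zero_of_not_dvd hq2z, zero_add]
    have hdvd : (q : ℤ) ∣ W.Δ * D ^ 3 := hrel ▸ hqE.mul_left _
    have h4 : (q : ℤ) ∣ E.c₄ → (q : ℤ) ∣ q4 W.c₄ W.c₆ x y := fun h => hU4 ▸ h.mul_left _
    rw [hval]
    by_cases hle : q ≤ ξ
    · obtain ⟨-, hbadΔ, hgood, -⟩ := odd_cond q hq hq2 (hmemS q hq hle) x y hx hy
      by_cases hqΔ : (q : ℤ) ∣ W.Δ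
      · exact ⟨fun h => (hbadΔ hqΔ).1 (h4 h), (hbadΔ hqΔ).2⟩
      · exact absurd ((hqz.dvd_mul.mp hdvd).resolve_left hqΔ)
          fun h => hgood hqΔ (hqz.dvd_of_dvd_pow h)
    · have hq6 : ¬ (q : ℤ) ∣ 6 * (W.c₄ ^ 3 - W.c₆ ^ 2) := fun h => hle (hprime q h)
      have hqΔ : ¬ (q : ℤ) ∣ W.Δ := fun h => hq6 (by rw [← W.c_relation]; exact (h.mul_left _).mul_left _)
      have hqD : (q : ℤ) ∣ D := hqz.dvd_of_dvd_pow ((hqz.dvd_mul.mp hdvd).resolve_left hqΔ)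
      have hq2D := hsf q hq (not_le.mp hle)
      refine ⟨fun h => ?_, ?_⟩
      · refine not_dvd_q4 hq6 hqD (fun hyq => hq2D ?_) (h4 h)
        obtain ⟨x', hx'⟩ := hqz.dvd_of_dvd_pow (dvd_pow_four_of_dvd_qD hqD hyq)
        obtain ⟨y', hy'⟩ := hyq
        rw [hD, hx', hy', qD_smul]
        exact (pow_dvd_pow _ (by norm_num)).mul_right _
      · rw [padicValInt.eq_zero_of_not_dvd hqΔ, padicValInt_eq_one hqD hq2D]
        decide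
  refine ⟨E, fun q hq h => (hbad q hq h).1, ⟨0, rfl⟩, ⟨0, rfl⟩, ?_,
    fun q hq h => (hbad q hq h).2, fun ℓ hℓ hg hg' h3' =>
      three_dvd_ap_sub (x := x) (y := y) (c := (U : ℚ)) (Int.cast_ne_zero.mpr hU0)
        (by exact_mod_cast hU4) (by exact_mod_cast hU6) hΔ hEΔ0 hℓ hg hg' h3'⟩
  have hUp : 0 < U ^ 12 := by rw [hU]; positivity
  have hlt : W.Δ * D ^ 3 < 0 := by
    by_cases h : 0 < W.Δ
    · exact mul_neg_of_pos_of_neg h (Odd.pow_neg (by decide) (hneg h))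
    · exact mul_neg_of_neg_of_pos (lt_of_le_of_ne (not_lt.mp h) hΔ) (pow_pos (hpos h) 3)
  by_contra h
  nlinarith [not_lt.mp h]

/-- For a semistable curve with good ordinary reduction at `2`, or multiplicative with `3 ∣ v₂(Δ)`,
and irreducible 3-torsion, a semistable curve with congruent traces mod `3`, good supersingular at
`2`, negative discriminant and odd valuation of the discriminant at every bad prime. -/
theorem exists_twin_of_odd (W : WeierstrassCurve ℤ) (hW : W.IsSemistableModel) (hΔ : W.Δ ≠ 0)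
    (h3 : 3 ∣ padicValInt 2 W.Δ) (hirr : W.ModRepIsIrreducible 3) (hc2 : ¬ (2 : ℤ) ∣ W.c₄) :
    ∃ E : WeierstrassCurve ℤ, E.IsSemistableModel ∧ Even E.a₁ ∧ Odd E.a₃ ∧ E.Δ < 0 ∧
      (∀ q : ℕ, q.Prime → (q : ℤ) ∣ E.Δ → Odd (padicValInt q E.Δ)) ∧
      ∀ ℓ : ℕ, ℓ.Prime → W.IsGoodPrimeFor ℓ → E.IsGoodPrimeFor ℓ → ℓ ≠ 3 →
        (3 : ℤ) ∣ E.apOfModel ℓ - W.apOfModel ℓ := by
  have hf2 : Fact (Nat.Prime 2) := ⟨Nat.prime_two⟩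
  obtain ⟨k, hk⟩ := h3
  obtain ⟨o, ho⟩ : (2 : ℤ) ^ (3 * k) ∣ W.Δ := by
    have := (padicValInt_dvd_iff (p := 2) (3 * k) W.Δ).mpr (Or.inr hk.ge)
    simpa using this
  have ho2 : ¬ (2 : ℤ) ∣ 27 * o := fun h => by
    have h' : (2 : ℤ) ∣ o := (Int.prime_two.dvd_mul.mp h).resolve_left (by norm_num)
    have hd : ((2 : ℕ) : ℤ) ^ (3 * k + 1) ∣ W.Δ := by
      rw [ho, pow_succ]; exact mul_dvd_mul_left _ (by simpa using h')
    have := ((padicValInt_dvd_iff _ _).mp hd).resolve_left hΔ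
    omega
  obtain ⟨hc4, hc6⟩ := c_mod_four W hc2
  have hne4 : W.c₄ ≠ 0 := by intro h; rw [h] at hc4; norm_num at hc4
  have hδ : W.c₄ ^ 3 - W.c₆ ^ 2 = 2 ^ (3 * k + 6) * (27 * o) := by
    rw [← W.c_relation, ho, pow_add]; ring
  refine exists_twin_of_datum W hW hΔ hirr hne4 (t₁ := -W.c₆) (t₂ := W.c₄) (e := k + 3)
    (j := k + 2) (by omega) fun x y hx hy => ?_
  have hy2 : ¬ (2 : ℤ) ∣ y :=
    not_dvd_of_congr ((dvd_pow_self _ (by omega)).trans hy) hc2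
  refine ⟨fun h => hy2 h.2, fun B hB1 hB2 => ?_⟩
  have hX : (2 : ℤ) ^ (k + 3) ∣ W.c₄ * x + W.c₆ * y := by
    rw [show W.c₄ * x + W.c₆ * y = W.c₄ * (x - -W.c₆) + W.c₆ * (y - W.c₄) by ring]
    exact dvd_add (hx.mul_left _) (hy.mul_left _)
  obtain ⟨C4, C6, hF4, hF6, hC6⟩ := two_adic hc4 hc6 ho2 hy2 hδ hX
  obtain ⟨a₂, a₄, a₆, hE4, hE6⟩ := exists_model hF4 hF6 hC6 hB1 hB2
  exact ⟨a₂, a₄, a₆, by rw [hE4, hF4]; ring, by rw [hE6, hF6]; ring⟩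

end Fermat.Agent.RT.Two.Twin
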