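import Fermat.Agent.RT.Two.Twin.Lattice

/-!
# Analytic lemmas, signs and root classes
-/

set_option autoImplicit false

namespace Fermat.Agent.RT.Two.Twin

open Finset

theorem card_primes_mul_le (m n : ℕ) :
    ((Icc 0 n).filter Nat.Prime).card * m ≤ n + m * (4 ^ m + 1) := by
  set A := (Icc 0 n).filter Nat.Prime with hA
  set A' := A.filter fun p => 4 ^ m < p with hA'
  have h1 : A.card ≤ (4 ^ m + 1) + A'.card := by
    have hsplit := card_filter_add_card_filter_not (s := A) fun p => 4 ^ m < p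
    have hsmall : (A.filter fun p => ¬ 4 ^ m < p).card ≤ 4 ^ m + 1 := by
      refine (card_le_card (t := Icc 0 (4 ^ m)) fun p hp => ?_).trans (by simp)
      simpa using (mem_filter.mp hp).2
    rw [hA']; omega
  have h2 : A'.card * m ≤ n := by
    have hprod : (4 ^ m) ^ A'.card ≤ primorial n := by
      calc (4 ^ m) ^ A'.card = ∏ _p ∈ A', 4 ^ m := (prod_const _).symm
        _ ≤ ∏ p ∈ A', p := prod_le_prod' fun p hp => (mem_filter.mp hp).2.le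
        _ ≤ primorial n := by
          refine prod_le_prod_of_subset_of_one_le' (fun p hp => ?_) fun p hp _ => ?_
          · rw [hA', hA, mem_filter, mem_filter, mem_Icc] at hp
            rw [mem_filter, mem_range]
            exact ⟨by omega, hp.1.2⟩
          · exact (mem_filter.mp hp).2.one_lt.le
    have := hprod.trans (primorial_le_four_pow n)
    rw [← pow_mul] at this
    rw [mul_comm]
    exact (Nat.pow_le_pow_iff_right (by norm_num)).mp this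
  calc A.card * m ≤ (4 ^ m + 1 + A'.card) * m := Nat.mul_le_mul_right m h1
    _ ≤ n + m * (4 ^ m + 1) := by rw [add_mul, mul_comm m]; omega

theorem sum_sqrt_div_sq_le (a b : ℕ) (ha : 0 < a) :
    ∑ n ∈ Ioc a b, Real.sqrt n / (n : ℝ) ^ 2 ≤ 2 / Real.sqrt a := by
  suffices h : ∀ b, a ≤ b →
      ∑ n ∈ Ioc a b, Real.sqrt n / (n : ℝ) ^ 2 ≤ 2 / Real.sqrt a - 2 / Real.sqrt b by
    rcases le_or_gt a b with hab | hab
    · exact (h b hab).trans (sub_le_self _ (by positivity))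
    · rw [Finset.Ioc_eq_empty_of_le hab.le, sum_empty]; positivity
  intro b hab
  induction b, hab using Nat.le_induction with
  | base => simp
  | succ b hab ih =>
    rw [Finset.sum_Ioc_succ_top hab]
    set x := Real.sqrt b with hx
    set y := Real.sqrt ((b + 1 : ℕ) : ℝ) with hy
    have hx0 : 0 < x := Real.sqrt_pos.mpr (by exact_mod_cast ha.trans_le hab)
    have hy0 : 0 < y := Real.sqrt_pos.mpr (by positivity)
    have hxy : x ≤ y := Real.sqrt_le_sqrt (by push_cast; linarith)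
    have hy2 : y ^ 2 = ((b + 1 : ℕ) : ℝ) := Real.sq_sqrt (by positivity)
    have hx2 : x ^ 2 = (b : ℝ) := Real.sq_sqrt (by positivity)
    have key : y / ((b + 1 : ℕ) : ℝ) ^ 2 ≤ 2 / x - 2 / y := by
      rw [← hy2, div_sub_div _ _ hx0.ne' hy0.ne', div_le_div_iff₀ (by positivity) (by positivity)]
      have e : y ^ 2 - x ^ 2 = 1 := by rw [hy2, hx2]; push_cast; ring
      nlinarith [mul_le_mul_of_nonneg_left hxy hy0.le, pow_pos hy0 2, pow_pos hy0 3, mul_pos hx0 hy0]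
    linarith

theorem qD_neg_of_narrow {c d : ℤ} {K : ℕ} (hc : c ≠ 0)
    (hK : 1 + 6 * c.natAbs + 8 * d.natAbs + 3 * c.natAbs ^ 2 ≤ K) {x y : ℤ} (hx : 0 ≤ x)
    (hxy : K * x ≤ y) (hy : 0 < y) : qD c d x y < 0 := by
  have hK' : 1 + 6 * |c| + 8 * |d| + 3 * |c| ^ 2 ≤ (K : ℤ) := by
    rw [← Int.natCast_natAbs, ← Int.natCast_natAbs]; exact_mod_cast hK
  have hK1 : (1 : ℤ) ≤ K := by nlinarith [abs_nonneg c, abs_nonneg d]
  have hc1 : 1 ≤ |c| := Int.one_le_abs hc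
  have hxy' : x ≤ y := by nlinarith
  set r := x * y ^ 3 with hr
  have hr0 : 0 ≤ r := by positivity
  have a1 : x ^ 4 ≤ r := by
    rw [hr, pow_succ' x 3]; exact mul_le_mul_of_nonneg_left (pow_le_pow_left₀ hx hxy' 3) hx
  have a2 : x ^ 2 * y ^ 2 ≤ r := by
    rw [hr]; nlinarith [mul_le_mul_of_nonneg_left hxy' (mul_nonneg hx (sq_nonneg y))]
  have a4 : (K : ℤ) * r ≤ y ^ 4 := by
    rw [hr]; nlinarith [mul_le_mul_of_nonneg_right hxy (pow_nonneg hy.le 3)]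
  have b2 : -6 * c * x ^ 2 * y ^ 2 ≤ 6 * |c| * r := by
    nlinarith [mul_le_mul_of_nonneg_left a2 (abs_nonneg c), neg_le_abs c,
      mul_nonneg (sq_nonneg x) (sq_nonneg y)]
  have b3 : -8 * d * x * y ^ 3 ≤ 8 * |d| * r := by
    rw [hr]; nlinarith [neg_le_abs d]
  simp only [qD]
  have e : |c| ^ 2 = c ^ 2 := sq_abs c
  have b4 : (1 + 6 * |c| + 8 * |d|) * r < 3 * c ^ 2 * y ^ 4 := by
    rw [← e]
    have h3 : (3 : ℤ) ≤ 3 * |c| ^ 2 := by nlinarith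
    nlinarith [mul_le_mul_of_nonneg_right hK' hr0, mul_le_mul_of_nonneg_right h3 (pow_nonneg hy.le 4),
      pow_pos hy 4]
  nlinarith

theorem qD_pos_of_narrow {c d : ℤ} {K : ℕ}
    (hK : 1 + 6 * c.natAbs + 8 * d.natAbs + 3 * c.natAbs ^ 2 ≤ K) {x y : ℤ} (hy : 0 ≤ y)
    (hxy : K * y ≤ x) (hx : 0 < x) : 0 < qD c d x y := by
  have hK' : 1 + 6 * |c| + 8 * |d| + 3 * |c| ^ 2 ≤ (K : ℤ) := by
    rw [← Int.natCast_natAbs, ← Int.natCast_natAbs]; exact_mod_cast hK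
  have hK1 : (1 : ℤ) ≤ K := by nlinarith [abs_nonneg c, abs_nonneg d]
  have hxy' : y ≤ x := by nlinarith
  set r := y * x ^ 3 with hr
  have hr0 : 0 ≤ r := by positivity
  have a1 : y ^ 4 ≤ r := by
    rw [hr, pow_succ' y 3]; exact mul_le_mul_of_nonneg_left (pow_le_pow_left₀ hy hxy' 3) hy
  have a2 : x ^ 2 * y ^ 2 ≤ r := by
    rw [hr]; nlinarith [mul_le_mul_of_nonneg_left hxy' (mul_nonneg hy (sq_nonneg x))]
  have a3 : x * y ^ 3 ≤ r := by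
    rw [hr]
    nlinarith [mul_le_mul_of_nonneg_left (pow_le_pow_left₀ hy hxy' 2) (mul_nonneg hx.le hy)]
  have a4 : (K : ℤ) * r ≤ x ^ 4 := by
    rw [hr]; nlinarith [mul_le_mul_of_nonneg_right hxy (pow_nonneg hx.le 3)]
  have b2 : 6 * c * x ^ 2 * y ^ 2 ≤ 6 * |c| * r := by
    nlinarith [mul_le_mul_of_nonneg_left a2 (abs_nonneg c), le_abs_self c,
      mul_nonneg (sq_nonneg x) (sq_nonneg y)]
  have b3 : 8 * d * x * y ^ 3 ≤ 8 * |d| * r := by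
    nlinarith [mul_le_mul_of_nonneg_left a3 (abs_nonneg d), le_abs_self d,
      mul_nonneg hx.le (pow_nonneg hy 3)]
  have b4 : 3 * c ^ 2 * y ^ 4 ≤ 3 * |c| ^ 2 * r := by
    rw [sq_abs]; nlinarith [mul_le_mul_of_nonneg_left a1 (sq_nonneg c)]
  simp only [qD]
  rcases eq_or_lt_of_le hr0 with e | e
  · have := mul_le_mul_of_nonneg_right hK' hr0
    rw [← e] at b2 b3 b4
    nlinarith [pow_pos hx 4]
  · nlinarith [mul_le_mul_of_nonneg_right hK' hr0]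

theorem dvd_of_same_class {c d : ℤ} {p : ℕ} (hp : p.Prime) (hne : ¬ (p : ℤ) ∣ 6 * (c ^ 3 - d ^ 2))
    {X Y X' Y' : ℤ} (hY : ¬ (p : ℤ) ∣ Y) (hY' : ¬ (p : ℤ) ∣ Y')
    (h : (p : ℤ) ^ 2 ∣ qD c d X Y) (h' : (p : ℤ) ^ 2 ∣ qD c d X' Y')
    (hcls : (p : ℤ) ∣ X * Y' - X' * Y) : (p : ℤ) ^ 2 ∣ X * Y' - X' * Y := by
  have hpi := Nat.prime_iff_prime_int.mp hp
  have : Fact p.Prime := ⟨hp⟩
  set u := X * Y' with hu
  set w := X' * Y with hw
  set z := Y * Y' with hz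
  set A := (u + w) * (u ^ 2 + w ^ 2) - 6 * c * (u + w) * z ^ 2 - 8 * d * z ^ 3 with hA
  have hd : (p : ℤ) ^ 2 ∣ (u - w) * A := by
    have e : (u - w) * A = Y' ^ 4 * qD c d X Y - Y ^ 4 * qD c d X' Y' := by
      rw [hA, hu, hw, hz]; simp only [qD]; ring
    rw [e]; exact dvd_sub (h.mul_left _) (h'.mul_left _)
  refine (IsCoprime.pow_left ?_).dvd_of_dvd_mul_right hd
  refine hpi.coprime_iff_not_dvd.mpr fun hAp => ?_
  have h6 : ((6 * (c ^ 3 - d ^ 2) : ℤ) : ZMod p) ≠ 0 := fun e =>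
    hne ((ZMod.intCast_zmod_eq_zero_iff_dvd _ p).mp e)
  push_cast at h6
  have h2 : (2 : ZMod p) ≠ 0 := fun e => h6 (by
    linear_combination 3 * ((c : ZMod p) ^ 3 - (d : ZMod p) ^ 2) * e)
  have h3 : (3 : ZMod p) ≠ 0 := fun e => h6 (by
    linear_combination 2 * ((c : ZMod p) ^ 3 - (d : ZMod p) ^ 2) * e)
  have hcd : (c : ZMod p) ^ 3 ≠ (d : ZMod p) ^ 2 := fun e => h6 (by linear_combination 6 * e)
  have hY0 : (Y : ZMod p) ≠ 0 := fun e => hY ((ZMod.intCast_zmod_eq_zero_iff_dvd _ p).mp e)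
  have hY0' : (Y' : ZMod p) ≠ 0 := fun e => hY' ((ZMod.intCast_zmod_eq_zero_iff_dvd _ p).mp e)
  have hq : qD (c : ZMod p) d X Y = 0 := by
    have := (ZMod.intCast_zmod_eq_zero_iff_dvd _ p).mpr ((dvd_pow_self _ two_ne_zero).trans h)
    rwa [← eq_intCast (Int.castRingHom (ZMod p)), map_qD] at this
  refine qDx_ne_zero h2 h3 hcd hq hY0 ?_
  have eA : (((A : ℤ)) : ZMod p) = 0 := (ZMod.intCast_zmod_eq_zero_iff_dvd _ p).mpr hAp
  have euw : ((u : ℤ) : ZMod p) = ((w : ℤ) : ZMod p) :=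
    sub_eq_zero.mp (by exact_mod_cast (ZMod.intCast_zmod_eq_zero_iff_dvd _ p).mpr hcls)
  rw [hA] at eA
  push_cast at eA
  rw [← euw, hu, hz] at eA
  push_cast at eA
  have : 4 * (Y' : ZMod p) ^ 3 * qDx (c : ZMod p) d X Y = 0 := by
    simp only [qDx]; linear_combination eA
  have h4 : (4 : ZMod p) ≠ 0 := by
    rw [show (4 : ZMod p) = 2 * 2 by norm_num]; exact mul_ne_zero h2 h2
  simpa [h4, hY0'] using this

theorem card_roots_le_four {c d : ℤ} {p : ℕ} [Fact p.Prime] :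
    (Finset.univ.filter fun t : ZMod p => qD (c : ZMod p) d t 1 = 0).card ≤ 4 := by
  classical
  set q : Polynomial (ZMod p) := Polynomial.X ^ 4
    - (Polynomial.C (6 * (c : ZMod p)) * Polynomial.X ^ 2
      + Polynomial.C (8 * (d : ZMod p)) * Polynomial.X
      + Polynomial.C (3 * (c : ZMod p) ^ 2)) with hq
  have hlow : (Polynomial.C (6 * (c : ZMod p)) * Polynomial.X ^ 2
      + Polynomial.C (8 * (d : ZMod p)) * Polynomial.X
      + Polynomial.C (3 * (c : ZMod p) ^ 2)).degree < ((4 : ℕ) : WithBot ℕ) :=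
    Polynomial.degree_quadratic_le.trans_lt (by norm_num)
  have hm : q.Monic := Polynomial.monic_X_pow_sub hlow
  have hdeg : q.natDegree ≤ 4 := by
    rw [Polynomial.natDegree_le_iff_degree_le, hq]
    refine (Polynomial.degree_sub_le _ _).trans (max_le ?_ hlow.le)
    rw [Polynomial.degree_X_pow]
  refine (card_le_card (t := q.roots.toFinset) fun t ht => ?_).trans
    ((Multiset.toFinset_card_le _).trans (q.card_roots'.trans hdeg))
  rw [Multiset.mem_toFinset, Polynomial.mem_roots hm.ne_zero, Polynomial.IsRoot.def, hq]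
  have := (mem_filter.mp ht).2
  simp only [qD] at this
  simp only [Polynomial.eval_sub, Polynomial.eval_add, Polynomial.eval_mul, Polynomial.eval_C,
    Polynomial.eval_pow, Polynomial.eval_X]
  linear_combination this

theorem eq_of_parallel {X Y X' Y' : ℤ} (hX : 0 ≤ X) (hY : 0 ≤ Y) (hX' : 0 ≤ X') (hY' : 0 ≤ Y')
    (hg : IsCoprime X Y) (hg' : IsCoprime X' Y') (h : X * Y' = X' * Y) : X = X' ∧ Y = Y' :=
  ⟨Int.dvd_antisymm hX hX' (hg.dvd_of_dvd_mul_right ⟨Y', by linarith⟩)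
      (hg'.dvd_of_dvd_mul_right ⟨Y, by linarith⟩),
    Int.dvd_antisymm hY hY' (hg.symm.dvd_of_dvd_mul_left ⟨X', by linarith⟩)
      (hg'.symm.dvd_of_dvd_mul_left ⟨X, by linarith⟩)⟩

/-- The first coordinate map of a residue class. -/
def lineAt (v : ℤ) (M : ℕ) (y : ℤ) : ℤ := v + M * y

theorem card_le_of_classes {c d : ℤ} {p : ℕ} (hpp : p.Prime)
    (hne6 : ¬ (p : ℤ) ∣ 6 * (c ^ 3 - d ^ 2)) (X Y : ℤ × ℤ → ℤ) (S : Finset (ℤ × ℤ))
    (hS : ∀ y ∈ S, (p : ℤ) ^ 2 ∣ qD c d (X y) (Y y) ∧ IsCoprime (X y) (Y y)) (n : ℕ)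
    (hn : ∀ T ⊆ S, (∀ y ∈ T, ∀ y' ∈ T, (p : ℤ) ^ 2 ∣ X y * Y y' - X y' * Y y) →
      (∀ y ∈ T, ¬ (p : ℤ) ∣ Y y) → T.card ≤ n) : S.card ≤ 4 * n := by
  classical
  have : Fact p.Prime := ⟨hpp⟩
  have hpz := Nat.prime_iff_prime_int.mp hpp
  have hY0 : ∀ y ∈ S, ¬ (p : ℤ) ∣ Y y := by
    intro y hy hdv
    obtain ⟨hd, hco⟩ := hS y hy
    have h4 : (p : ℤ) ∣ X y ^ 4 := by
      have e : X y ^ 4 = qD c d (X y) (Y y) + Y y * (6 * c * X y ^ 2 * Y y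
          + 8 * d * X y * Y y ^ 2 + 3 * c ^ 2 * Y y ^ 3) := by simp only [qD]; ring
      rw [e]; exact dvd_add ((dvd_pow_self _ two_ne_zero).trans hd) (hdv.mul_right _)
    exact hpz.not_isUnit (hco.isUnit_of_dvd' (hpz.dvd_of_dvd_pow h4) hdv)
  set ρ : ℤ × ℤ → ZMod p := fun y => (X y : ZMod p) / (Y y : ZMod p) with hρ
  have hroot : ∀ y ∈ S, qD (c : ZMod p) d (ρ y) 1 = 0 := by
    intro y hy
    have h0 : (Y y : ZMod p) ≠ 0 := fun e =>
      hY0 y hy ((ZMod.intCast_zmod_eq_zero_iff_dvd _ p).mp e)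
    have e := (ZMod.intCast_zmod_eq_zero_iff_dvd _ p).mpr
      ((dvd_pow_self _ two_ne_zero).trans (hS y hy).1)
    rw [← eq_intCast (Int.castRingHom (ZMod p)), map_qD] at e
    simp only [eq_intCast] at e
    have e2 := qD_smul (Y y : ZMod p) (c : ZMod p) d (ρ y) 1
    rw [mul_one, hρ, mul_div_cancel₀ _ h0, e] at e2
    simpa [h0] using e2.symm
  refine (card_le_mul_card_image (f := ρ) S n fun t _ => ?_).trans ?_
  · refine hn _ (filter_subset _ _) ?_ fun y hy => hY0 y (mem_filter.mp hy).1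
    intro y hy y' hy'
    obtain ⟨hyS, hyt⟩ := mem_filter.mp hy
    obtain ⟨hyS', hyt'⟩ := mem_filter.mp hy'
    refine dvd_of_same_class hpp hne6 (hY0 y hyS) (hY0 y' hyS') (hS y hyS).1 (hS y' hyS').1 ?_
    have h0 : (Y y : ZMod p) ≠ 0 := fun e =>
      hY0 y hyS ((ZMod.intCast_zmod_eq_zero_iff_dvd _ p).mp e)
    have h0' : (Y y' : ZMod p) ≠ 0 := fun e =>
      hY0 y' hyS' ((ZMod.intCast_zmod_eq_zero_iff_dvd _ p).mp e)
    rw [← hyt'] at hyt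
    simp only [hρ, div_eq_div_iff h0 h0'] at hyt
    rw [← ZMod.intCast_zmod_eq_zero_iff_dvd]
    push_cast
    linear_combination hyt
  · rw [mul_comm n]
    refine Nat.mul_le_mul_right n ((card_le_card ?_).trans (card_roots_le_four (c := c) (d := d)))
    intro t ht
    obtain ⟨y, hy, rfl⟩ := mem_image.mp ht
    exact mem_filter.mpr ⟨mem_univ _, hroot y hy⟩

theorem card_le_four_of_large {c d : ℤ} {p : ℕ} (hpp : p.Prime)
    (hne6 : ¬ (p : ℤ) ∣ 6 * (c ^ 3 - d ^ 2)) (v₁ v₂ : ℤ) (M H : ℕ) (hM : 0 < M)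
    (S : Finset (ℤ × ℤ)) (hpH : 2 * H < p)
    (hS : ∀ y ∈ S, (p : ℤ) ^ 2 ∣ qD c d (lineAt v₁ M y.1) (lineAt v₂ M y.2) ∧
      IsCoprime (lineAt v₁ M y.1) (lineAt v₂ M y.2))
    (hb : ∀ y ∈ S, (0 ≤ lineAt v₁ M y.1 ∧ lineAt v₁ M y.1 < (H : ℤ)) ∧
      (0 ≤ lineAt v₂ M y.2 ∧ lineAt v₂ M y.2 < (H : ℤ))) : S.card ≤ 4 := by
  refine card_le_of_classes hpp hne6 (fun y => lineAt v₁ M y.1) (fun y => lineAt v₂ M y.2) S hS 1
    fun T hT hdet _ => card_le_one.mpr fun y hy y' hy' => ?_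
  obtain ⟨⟨s1, s3⟩, s2, s4⟩ := hb y (hT hy)
  obtain ⟨⟨s1', s3'⟩, s2', s4'⟩ := hb y' (hT hy')
  have hMz : (M : ℤ) ≠ 0 := by exact_mod_cast hM.ne'
  have e0 : lineAt v₁ M y.1 * lineAt v₂ M y'.2 - lineAt v₁ M y'.1 * lineAt v₂ M y.2 = 0 := by
    refine Int.eq_zero_of_abs_lt_dvd (hdet y hy y' hy') ?_
    have hpH' : 2 * (H : ℤ) < p := by exact_mod_cast hpH
    have hH0 : (0 : ℤ) ≤ H := Int.natCast_nonneg H
    have u1 := mul_le_mul s3.le s4'.le s2' hH0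
    have u2 := mul_le_mul s3'.le s4.le s2 hH0
    have u3 := mul_nonneg s1 s2'
    have u4 := mul_nonneg s1' s2
    rw [abs_lt]
    constructor <;> nlinarith
  obtain ⟨eX, eY⟩ := eq_of_parallel s1 s2 s1' s2' (hS y (hT hy)).2 (hS y' (hT hy')).2
    (sub_eq_zero.mp e0)
  simp only [lineAt, add_right_inj, mul_right_inj' hMz] at eX eY
  exact Prod.ext eX eY

theorem card_le_of_small {c d : ℤ} {K : ℕ}
    (hK : 1 + 6 * c.natAbs + 8 * d.natAbs + 3 * c.natAbs ^ 2 ≤ K)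
    (hD : ∀ x y : ℤ, qD c d x y = 0 → x = 0 ∧ y = 0) {p : ℕ} (hpp : p.Prime) (hpK : K ≤ p)
    (hne6 : ¬ (p : ℤ) ∣ 6 * (c ^ 3 - d ^ 2)) (v₁ v₂ : ℤ) (M : ℕ) (hpM : ¬ p ∣ M)
    (A B : ℤ) (L : ℕ) (S : Finset (ℤ × ℤ))
    (hbox : ∀ y ∈ S, (A ≤ y.1 ∧ y.1 < A + L) ∧ (B ≤ y.2 ∧ y.2 < B + L))
    (hS : ∀ y ∈ S, (p : ℤ) ^ 2 ∣ qD c d (lineAt v₁ M y.1) (lineAt v₂ M y.2) ∧
      IsCoprime (lineAt v₁ M y.1) (lineAt v₂ M y.2)) :
    S.card ≤ 4 * ((L / (p / 2) + 1) ^ 2 * (p / 2 / Nat.sqrt (p / K) + 1)) := by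
  have hpz := Nat.prime_iff_prime_int.mp hpp
  have hco : IsCoprime ((p : ℤ) ^ 2) M :=
    IsCoprime.pow_left (hpz.coprime_iff_not_dvd.mpr fun e => hpM (Int.natCast_dvd_natCast.mp e))
  refine card_le_of_classes hpp hne6 (fun y => lineAt v₁ M y.1) (fun y => lineAt v₂ M y.2) S hS _
    fun T hT hdet hYT => ?_
  have hcoY : ∀ y ∈ T, IsCoprime ((p : ℤ) ^ 2) (lineAt v₂ M y.2) := fun y hy =>
    IsCoprime.pow_left (hpz.coprime_iff_not_dvd.mpr (hYT y hy))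
  have hlin : ∀ y ∈ T, ∀ y' ∈ T, (p : ℤ) ^ 2 ∣
      lineAt v₁ M y.1 * (y'.2 - y.2) - lineAt v₂ M y.2 * (y'.1 - y.1) := by
    intro y hy y' hy'
    refine hco.dvd_of_dvd_mul_left ?_
    have e : (M : ℤ) * (lineAt v₁ M y.1 * (y'.2 - y.2) - lineAt v₂ M y.2 * (y'.1 - y.1))
        = lineAt v₁ M y.1 * lineAt v₂ M y'.2 - lineAt v₁ M y'.1 * lineAt v₂ M y.2 := by
      simp only [lineAt]; ring
    rw [e]
    exact hdet y hy y' hy'
  refine card_class_bound c d K hK hD p hpp.two_le hpK T A B L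
    (fun y hy => hbox y (hT hy)) ?_ ?_
  · intro y hy y' hy'
    have hd := (hS y (hT hy)).1
    obtain ⟨k, hk⟩ := hlin y hy y' hy'
    refine ((hcoY y hy).pow_right (n := 4)).dvd_of_dvd_mul_left ?_
    set a := lineAt v₁ M y.1
    set b := lineAt v₂ M y.2
    set z1 := y'.1 - y.1
    set z2 := y'.2 - y.2
    rw [← qD_smul, show b * z1 = a * z2 + (p : ℤ) ^ 2 * (-k) by linear_combination -hk]
    have e : qD c d (a * z2 + (p : ℤ) ^ 2 * (-k)) (b * z2)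
        = z2 ^ 4 * qD c d a b + (p : ℤ) ^ 2 * ((-k) * (
          4 * (a * z2) ^ 3 + 6 * (a * z2) ^ 2 * ((p : ℤ) ^ 2 * (-k))
          + 4 * (a * z2) * ((p : ℤ) ^ 2 * (-k)) ^ 2 + ((p : ℤ) ^ 2 * (-k)) ^ 3
          - 6 * c * (2 * (a * z2) + (p : ℤ) ^ 2 * (-k)) * (b * z2) ^ 2
          - 8 * d * (b * z2) ^ 3)) := by simp only [qD]; ring
    rw [e]
    exact dvd_add (hd.mul_left _) (dvd_mul_right _ _)
  · intro y hy y' hy' y'' hy''
    refine (hcoY y hy).dvd_of_dvd_mul_left ?_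
    have e : lineAt v₂ M y.2 * ((y'.1 - y.1) * (y''.2 - y.2) - (y'.2 - y.2) * (y''.1 - y.1))
        = (y'.2 - y.2) * (lineAt v₁ M y.1 * (y''.2 - y.2) - lineAt v₂ M y.2 * (y''.1 - y.1))
          - (y''.2 - y.2) * (lineAt v₁ M y.1 * (y'.2 - y.2) - lineAt v₂ M y.2 * (y'.1 - y.1)) := by
      ring
    rw [e]
    exact dvd_sub ((hlin y hy y'' hy'').mul_left _) ((hlin y hy y' hy').mul_left _)

theorem small_bound_real {K p L : ℕ} (hK : 0 < K) (hp : p.Prime) (hpK : K ≤ p) :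
    ((4 * ((L / (p / 2) + 1) ^ 2 * (p / 2 / Nat.sqrt (p / K) + 1)) : ℕ) : ℝ)
      ≤ 360 * K * (L : ℝ) ^ 2 * (Real.sqrt p / (p : ℝ) ^ 2) + 40 * K * Real.sqrt p := by
  set s := Nat.sqrt (p / K) with hs
  have hs0 : 0 < s := Nat.sqrt_pos.mpr (Nat.div_pos hpK hK)
  have hsp : s * s ≤ p := (Nat.sqrt_le _).trans (Nat.div_le_self _ _)
  have hps : p < 4 * K * (s * s) := by
    have h1 : p / K < (s + 1) * (s + 1) := Nat.lt_succ_sqrt _
    have h2 : p < (s + 1) * (s + 1) * K := (Nat.div_lt_iff_lt_mul hK).mp h1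
    have h3 : (s + 1) * (s + 1) ≤ 4 * (s * s) := by nlinarith
    nlinarith [Nat.mul_le_mul_right K h3]
  have hdiv : p / 2 / s + 1 ≤ 5 * K * s := by
    have : p / 2 / s ≤ 4 * K * s := by
      refine Nat.div_le_of_le_mul ?_
      nlinarith [Nat.div_le_self p 2]
    nlinarith
  have hsR : (s : ℝ) ≤ Real.sqrt p := Real.le_sqrt_of_sq_le (by rw [sq]; exact_mod_cast hsp)
  have hp0 : (0 : ℝ) < p := by exact_mod_cast hp.pos
  have hLh : ((L / (p / 2) : ℕ) : ℝ) ≤ 3 * ((L : ℝ) / p) := by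
    have hp2 : p ≤ 3 * (p / 2) := by have := hp.two_le; omega
    have hp2' : (p : ℝ) ≤ 3 * ((p / 2 : ℕ) : ℝ) := by exact_mod_cast hp2
    refine Nat.cast_div_le.trans ?_
    rw [← mul_div_assoc, div_le_div_iff₀ (by linarith) hp0]
    nlinarith [mul_le_mul_of_nonneg_left hp2' (Nat.cast_nonneg (α := ℝ) L)]
  have hb : (((L / (p / 2) : ℕ) : ℝ) + 1) ^ 2 ≤ 18 * ((L : ℝ) ^ 2 / (p : ℝ) ^ 2) + 2 := by
    refine (pow_le_pow_left₀ (by positivity) (by linarith : _ ≤ 3 * ((L : ℝ) / p) + 1) 2).trans ?_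
    rw [← div_pow]
    nlinarith [sq_nonneg (3 * ((L : ℝ) / p) - 1)]
  have hc : ((p / 2 / s + 1 : ℕ) : ℝ) ≤ 5 * K * Real.sqrt p := by
    have : ((p / 2 / s + 1 : ℕ) : ℝ) ≤ ((5 * K * s : ℕ) : ℝ) := Nat.cast_le.mpr hdiv
    push_cast at this ⊢
    exact this.trans (mul_le_mul_of_nonneg_left hsR (by positivity))
  rw [Nat.cast_mul, Nat.cast_mul, Nat.cast_pow, Nat.cast_add, Nat.cast_one, Nat.cast_ofNat]
  calc (4 : ℝ) * ((((L / (p / 2) : ℕ) : ℝ) + 1) ^ 2 * ((p / 2 / s + 1 : ℕ) : ℝ))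
      ≤ 4 * ((18 * ((L : ℝ) ^ 2 / (p : ℝ) ^ 2) + 2) * (5 * K * Real.sqrt p)) :=
        mul_le_mul_of_nonneg_left (mul_le_mul hb hc (Nat.cast_nonneg _) (by positivity)) (by norm_num)
    _ = _ := by ring

theorem congr_bound_real {n L : ℕ} (hn : 0 < n) :
    (((L / n + 1) ^ 2 : ℕ) : ℝ) ≤ 2 * (L : ℝ) ^ 2 * (Real.sqrt n / (n : ℝ) ^ 2) + 2 := by
  have h1 : ((L / n : ℕ) : ℝ) ≤ (L : ℝ) / n := Nat.cast_div_le
  have h3 : 1 ≤ Real.sqrt n := Real.one_le_sqrt.mpr (by exact_mod_cast hn)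
  have h4 : ((L : ℝ) / n) ^ 2 ≤ (L : ℝ) ^ 2 * (Real.sqrt n / (n : ℝ) ^ 2) := by
    rw [div_pow, div_eq_mul_one_div, ← mul_one (Real.sqrt n)]
    refine mul_le_mul_of_nonneg_left ?_ (sq_nonneg _)
    rw [mul_one]
    exact div_le_div_of_nonneg_right h3 (sq_nonneg _)
  push_cast
  refine (pow_le_pow_left₀ (by positivity) (by linarith : _ ≤ (L : ℝ) / n + 1) 2).trans ?_
  nlinarith [sq_nonneg ((L : ℝ) / n - 1)]

end Fermat.Agent.RT.Two.Twin
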