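import Fermat.Agent.RT.Two.Twin.Points

/-!
# The isomorphism of 3-torsion inside a Hessian pencil
-/

set_option autoImplicit false

namespace Fermat.Agent.RT.Two.Twin

open WeierstrassCurve WeierstrassCurve.Affine Polynomial

variable {K : Type*} [Field K]

/-- `V'` is the member of the pencil of `V` with parameter `(a : b)`, scaled by `u`. -/
structure Related (V V' : WeierstrassCurve K) (a b u : K) : Prop where
  hu : u ≠ 0
  hc4 : u ^ 4 * V'.c₄ = q4 V.c₄ V.c₆ a b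
  hc6 : u ^ 6 * V'.c₆ = q6 V.c₄ V.c₆ a b
  hΔ : V.Δ ≠ 0
  hΔ' : V'.Δ ≠ 0

/-- The transported abscissa. -/
def movX (V V' : WeierstrassCurve K) (a b u x : K) : K :=
  (tMove V.c₄ V.c₆ a b (tOf V x) / u ^ 2 - V'.b₂) / 12

/-- The transported ordinate. -/
def movY (V V' : WeierstrassCurve K) (a b u x y : K) : K :=
  (yOf V x y * yMove V.c₄ V.c₆ a b (tOf V x) / u ^ 3 - V'.a₁ * movX V V' a b u x - V'.a₃) / 2

variable [CharZero K] {V V' : WeierstrassCurve K} {a b u : K}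

theorem tOf_movX (x : K) :
    tOf V' (movX V V' a b u x) = tMove V.c₄ V.c₆ a b (tOf V x) / u ^ 2 := by
  simp only [tOf, movX]; field_simp; ring

theorem yOf_movY (x y : K) :
    yOf V' (movX V V' a b u x) (movY V V' a b u x y)
      = yOf V x y * yMove V.c₄ V.c₆ a b (tOf V x) / u ^ 3 := by
  simp only [yOf, movY]; field_simp; ring

theorem movY_negY (x y : K) :
    movY V V' a b u x (V.toAffine.negY x y)
      = V'.toAffine.negY (movX V V' a b u x) (movY V V' a b u x y) := by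
  simp only [movY]
  rw [yOf_negY, Affine.negY]
  ring

theorem tOf_ne {W : WeierstrassCurve K} {x x' : K} (e : x ≠ x') : tOf W x ≠ tOf W x' := by
  simp [tOf, e]

variable (h : Related V V' a b u)

include h

theorem Related.qD_ne : qD V.c₄ V.c₆ a b ≠ 0 := by
  intro h0
  have e := q4_cube_sub_q6_sq V.c₄ V.c₆ a b
  rw [h0, ← h.hc4, ← h.hc6] at e
  have e' := V'.c_relation
  have : u ^ 12 * V'.Δ * 1728 = 0 := by linear_combination e + u ^ 12 * e'
  simp [h.hu, h.hΔ'] at this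

omit [CharZero K] in
theorem Related.qDx_move {x : K} (hx : qD V.c₄ V.c₆ (tOf V x) 1 = 0) :
    qDx V'.c₄ V'.c₆ (tMove V.c₄ V.c₆ a b (tOf V x) / u ^ 2) 1
      = yMove V.c₄ V.c₆ a b (tOf V x) ^ 2 * qDx V.c₄ V.c₆ (tOf V x) 1 / u ^ 6 := by
  have e := cubic_move V.c₄ V.c₆ a b (tOf V x)
  rw [hx, zero_mul, add_zero, ← h.hc4, ← h.hc6] at e
  have := h.hu
  simp only [qDx] at e ⊢
  field_simp
  linear_combination e

theorem Related.qD_movX {x : K} (hx : qD V.c₄ V.c₆ (tOf V x) 1 = 0) :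
    qD V'.c₄ V'.c₆ (tOf V' (movX V V' a b u x)) 1 = 0 := by
  have e := qD_move V.c₄ V.c₆ a b (tOf V x)
  rw [hx, zero_mul, ← h.hc4, ← h.hc6] at e
  have hu := h.hu
  rw [tOf_movX]
  simp only [qD] at e ⊢
  field_simp
  linear_combination e

theorem Related.nonsingular_mov {x y : K} (hns : V.toAffine.Nonsingular x y)
    (hx : qD V.c₄ V.c₆ (tOf V x) 1 = 0) :
    V'.toAffine.Nonsingular (movX V V' a b u x) (movY V V' a b u x y) := by
  refine (Affine.equation_iff_nonsingular_of_Δ_ne_zero h.hΔ').mp (equation_of_qDx V' ?_)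
  have := h.hu
  rw [yOf_movY, tOf_movX, h.qDx_move hx, ← four_thirty_two_yOf_sq V hns.1]
  field_simp

variable [DecidableEq K] [IsAlgClosed K]

open Classical in
/-- The transport of points. -/
noncomputable def Related.move : V.toAffine.Point → V'.toAffine.Point
  | .zero => 0
  | .some x _y hns => if hx : qD V.c₄ V.c₆ (tOf V x) 1 = 0 then
      .some _ _ (h.nonsingular_mov hns hx) else 0

omit [IsAlgClosed K] in
theorem Related.move_zero : h.move 0 = 0 := rfl

omit [IsAlgClosed K] in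
theorem Related.move_some {x y : K} (hns : V.toAffine.Nonsingular x y)
    (hx : qD V.c₄ V.c₆ (tOf V x) 1 = 0) :
    h.move (.some x y hns) = .some _ _ (h.nonsingular_mov hns hx) := by
  simp only [Related.move, dif_pos hx]

omit [IsAlgClosed K] in
theorem Related.move_neg {P : V.toAffine.Point} (hP : 3 • P = 0) : h.move (-P) = -h.move P := by
  obtain _ | ⟨x, y, hns⟩ := P
  · change h.move (-0) = -h.move 0
    rw [neg_zero, h.move_zero, neg_zero]
  · have hx := qD_tOf_of_three V hns hP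
    rw [Point.neg_some, h.move_some _ hx, h.move_some _ hx, Point.neg_some]
    simp only [Point.some.injEq]
    exact ⟨trivial, movY_negY x y⟩

theorem Related.move_three {P : V.toAffine.Point} (hP : 3 • P = 0) : 3 • h.move P = 0 := by
  obtain _ | ⟨x, y, hns⟩ := P
  · change 3 • h.move 0 = 0
    rw [h.move_zero, smul_zero]
  · have hx := qD_tOf_of_three V hns hP
    rw [h.move_some _ hx]
    exact three_nsmul_of_root V' h.hΔ' _ (h.qD_movX hx)

omit [DecidableEq K] [IsAlgClosed K] in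
theorem Related.linear_ne {t : K} (ht : qD V.c₄ V.c₆ t 1 = 0) : a - t * b ≠ 0 := by
  intro h0
  have e := linear_mul_yMove V.c₄ V.c₆ a b t
  rw [h0, ht, zero_mul, mul_zero, sub_zero] at e
  exact h.qD_ne e.symm

omit [CharZero K] h [DecidableEq K] [IsAlgClosed K] in
/-- The factorisation of the difference of two transported roots. -/
theorem Related.tMove_sub_eq {t₁ t₂ t₃ : K} (h1 : qD V.c₄ V.c₆ t₁ 1 = 0)
    (h2 : qD V.c₄ V.c₆ t₂ 1 = 0) (h3 : qD V.c₄ V.c₆ t₃ 1 = 0) (h12 : t₁ ≠ t₂) (h23 : t₂ ≠ t₃)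
    (h13 : t₁ ≠ t₃) :
    qD V.c₄ V.c₆ (-(t₁ + t₂ + t₃)) 1 = 0 ∧
    tMove V.c₄ V.c₆ a b t₁ - tMove V.c₄ V.c₆ a b t₂
      = (t₁ - t₂) * ((a - t₃ * b) * (a - -(t₁ + t₂ + t₃) * b)) := by
  simp only [qD, one_pow, mul_one] at h1 h2 h3 ⊢
  have d12 : (t₁ + t₂) * (t₁ ^ 2 + t₂ ^ 2) - 6 * V.c₄ * (t₁ + t₂) - 8 * V.c₆ = 0 :=
    mul_left_cancel₀ (sub_ne_zero.mpr h12) (by linear_combination h1 - h2)
  have d13 : (t₁ + t₃) * (t₁ ^ 2 + t₃ ^ 2) - 6 * V.c₄ * (t₁ + t₃) - 8 * V.c₆ = 0 :=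
    mul_left_cancel₀ (sub_ne_zero.mpr h13) (by linear_combination h1 - h3)
  have S : t₁ ^ 2 + t₂ ^ 2 + t₃ ^ 2 + t₁ * t₂ + t₁ * t₃ + t₂ * t₃ - 6 * V.c₄ = 0 :=
    mul_left_cancel₀ (sub_ne_zero.mpr h23) (by linear_combination d12 - d13)
  refine ⟨?_, ?_⟩
  · linear_combination h1
      + (-(t₁ + t₂ + t₃) - t₁) * (d12 + (-(t₁ + t₂ + t₃) - t₂) * S)
  · rw [tMove_sub]
    linear_combination (t₁ - t₂) * b ^ 2 * S

omit [IsAlgClosed K] in
/-- Additivity on a pair with distinct abscissae. -/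
theorem Related.move_add_of_ne {x₁ y₁ x₂ y₂ : K} (h₁ : V.toAffine.Nonsingular x₁ y₁)
    (h₂ : V.toAffine.Nonsingular x₂ y₂) (hne : x₁ ≠ x₂)
    (p₁ : (3 : ℕ) • (Point.some x₁ y₁ h₁ : V.toAffine.Point) = 0)
    (p₂ : (3 : ℕ) • (Point.some x₂ y₂ h₂ : V.toAffine.Point) = 0) :
    h.move (.some x₁ y₁ h₁ + .some x₂ y₂ h₂) = h.move (.some x₁ y₁ h₁) + h.move (.some x₂ y₂ h₂) := by
  set P := (Point.some x₁ y₁ h₁ : V.toAffine.Point) with hP
  set Q := (Point.some x₂ y₂ h₂ : V.toAffine.Point) with hQ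
  have pR : 3 • (P + Q) = 0 := by rw [nsmul_add, p₁, p₂, add_zero]
  have hsum : P + Q = .some _ _
      (Affine.nonsingular_add h₁ h₂ fun e => hne e.1) := Point.add_of_X_ne hne
  set x₃ := V.toAffine.addX x₁ x₂ (V.toAffine.slope x₁ x₂ y₁ y₂) with hx₃
  set n₃ := V.toAffine.negAddY x₁ x₂ y₁ (V.toAffine.slope x₁ x₂ y₁ y₂) with hn₃
  have ptwo : ∀ X : V.toAffine.Point, 3 • X = 0 → X + X = -X := fun X hX => by
    rw [eq_neg_iff_add_eq_zero, ← hX]; abel
  have hne' : ∀ X Y : V.toAffine.Point, 3 • X = 0 → 3 • Y = 0 → X + Y = X ∨ X + Y = -X →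
      Y = 0 ∨ Y = X := by
    rintro X Y hX - (e | e)
    · exact Or.inl (by simpa using e)
    · refine Or.inr (add_left_cancel (a := X) ?_)
      rw [e, ptwo X hX]
  have h31 : x₃ ≠ x₁ := fun e => by
    have hmem : P + Q = P ∨ P + Q = -P := by
      rw [hsum, hP, Point.neg_some]; exact Point.X_eq_iff.mp e
    rcases hne' P Q p₁ p₂ hmem with e' | e'
    · exact Point.some_ne_zero h₂ e'
    · exact hne ((Point.some.inj e').1.symm)
  have h32 : x₃ ≠ x₂ := fun e => by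
    have hmem : Q + P = Q ∨ Q + P = -Q := by
      rw [add_comm, hsum, hQ, Point.neg_some]; exact Point.X_eq_iff.mp e
    rcases hne' Q P p₂ p₁ hmem with e' | e'
    · exact Point.some_ne_zero h₁ e'
    · exact hne ((Point.some.inj e').1)
  have e₁ := qD_tOf_of_three V h₁ p₁
  have e₂ := qD_tOf_of_three V h₂ p₂
  have pR' := pR
  rw [hsum] at pR'
  have e₃ : qD V.c₄ V.c₆ (tOf V x₃) 1 = 0 := qD_tOf_of_three V _ pR'
  have k12 := tOf_ne (W := V) hne
  have k31 := tOf_ne (W := V) h31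
  have k32 := tOf_ne (W := V) h32
  obtain ⟨e₄, f12⟩ := Related.tMove_sub_eq e₁ e₂ e₃ k12 k32.symm k31.symm
  obtain ⟨-, f23⟩ := Related.tMove_sub_eq e₂ e₃ e₁ k32.symm k31 k12.symm
  obtain ⟨-, f31⟩ := Related.tMove_sub_eq e₃ e₁ e₂ k31 k12 k32
  have l₁ := h.linear_ne e₁
  have l₂ := h.linear_ne e₂
  have l₃ := h.linear_ne e₃
  have l₄ := h.linear_ne e₄
  have m₁ := linear_mul_yMove V.c₄ V.c₆ a b (tOf V x₁)
  have m₂ := linear_mul_yMove V.c₄ V.c₆ a b (tOf V x₂)
  have m₃ := linear_mul_yMove V.c₄ V.c₆ a b (tOf V x₃)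
  rw [e₁, mul_zero, sub_zero] at m₁
  rw [e₂, mul_zero, sub_zero] at m₂
  rw [e₃, mul_zero, sub_zero] at m₃
  have hsep : ∀ {x x'}, tMove V.c₄ V.c₆ a b (tOf V x) - tMove V.c₄ V.c₆ a b (tOf V x') ≠ 0 →
      movX V V' a b u x ≠ movX V V' a b u x' := fun hd e => hd (by
    have := congrArg (tOf V') e
    rw [tOf_movX, tOf_movX, div_left_inj' (pow_ne_zero 2 h.hu)] at this
    rw [this, sub_self])
  have n12 : movX V V' a b u x₁ ≠ movX V V' a b u x₂ :=
    hsep (by rw [f12]; exact mul_ne_zero (sub_ne_zero.mpr k12) (mul_ne_zero l₃ l₄))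
  have n31 : movX V V' a b u x₃ ≠ movX V V' a b u x₁ := hsep (by
    rw [f31]; refine mul_ne_zero (sub_ne_zero.mpr k31) (mul_ne_zero l₂ ?_)
    convert! l₄ using 3; ring)
  have n32 : movX V V' a b u x₃ ≠ movX V V' a b u x₂ := Ne.symm <| hsep (by
    rw [f23]; refine mul_ne_zero (sub_ne_zero.mpr k32.symm) (mul_ne_zero l₁ ?_)
    convert! l₄ using 3; ring)
  have hn : V.toAffine.Nonsingular x₃ n₃ := Affine.nonsingular_negAdd h₁ h₂ fun e => hne e.1
  have hline : (x₂ - x₃) * yOf V x₁ y₁ + (x₃ - x₁) * yOf V x₂ y₂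
      + (x₁ - x₂) * yOf V x₃ n₃ = 0 := by
    have hd : x₁ - x₂ ≠ 0 := sub_ne_zero.mpr hne
    have hn3 : n₃ = V.toAffine.slope x₁ x₂ y₁ y₂ * (x₃ - x₁) + y₁ := rfl
    simp only [yOf, hn3, Affine.slope_of_X_ne hne]
    field_simp
    ring
  have hN := h.nonsingular_mov hn e₃
  have hline' : (movX V V' a b u x₂ - movX V V' a b u x₃) * movY V V' a b u x₁ y₁
      + (movX V V' a b u x₃ - movX V V' a b u x₁) * movY V V' a b u x₂ y₂
      + (movX V V' a b u x₁ - movX V V' a b u x₂) * movY V V' a b u x₃ n₃ = 0 := by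
    have hu := h.hu
    have key : (tMove V.c₄ V.c₆ a b (tOf V x₂) - tMove V.c₄ V.c₆ a b (tOf V x₃))
          * (yOf V x₁ y₁ * yMove V.c₄ V.c₆ a b (tOf V x₁))
        + (tMove V.c₄ V.c₆ a b (tOf V x₃) - tMove V.c₄ V.c₆ a b (tOf V x₁))
          * (yOf V x₂ y₂ * yMove V.c₄ V.c₆ a b (tOf V x₂))
        + (tMove V.c₄ V.c₆ a b (tOf V x₁) - tMove V.c₄ V.c₆ a b (tOf V x₂))
          * (yOf V x₃ n₃ * yMove V.c₄ V.c₆ a b (tOf V x₃)) = 0 := by
      rw [f12, f23, f31]
      set z := a - -(tOf V x₁ + tOf V x₂ + tOf V x₃) * b with hz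
      rw [show a - -(tOf V x₂ + tOf V x₃ + tOf V x₁) * b = z by ring,
        show a - -(tOf V x₃ + tOf V x₁ + tOf V x₂) * b = z by ring]
      rw [show tOf V x₂ - tOf V x₃ = 12 * (x₂ - x₃) by simp only [tOf]; ring,
        show tOf V x₃ - tOf V x₁ = 12 * (x₃ - x₁) by simp only [tOf]; ring,
        show tOf V x₁ - tOf V x₂ = 12 * (x₁ - x₂) by simp only [tOf]; ring]
      linear_combination (12 * (x₂ - x₃) * yOf V x₁ y₁ * z) * m₁
        + (12 * (x₃ - x₁) * yOf V x₂ y₂ * z) * m₂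
        + (12 * (x₁ - x₂) * yOf V x₃ n₃ * z) * m₃
        + 12 * z * qD V.c₄ V.c₆ a b * hline
    simp only [movY, movX]
    field_simp
    linear_combination 12 * key
  have hcol := add_eq_of_collinear (h.nonsingular_mov h₁ e₁) (h.nonsingular_mov h₂ e₂) hN
    n12 n31 n32 hline'
  rw [← h.move_some h₁ e₁, ← h.move_some h₂ e₂] at hcol
  rw [add_eq_zero_iff_eq_neg] at hcol
  rw [hcol, hsum, h.move_some _ e₃, Point.neg_some]
  simp only [Point.some.injEq]
  exact ⟨trivial, by rw [← movY_negY]; rfl⟩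

theorem Related.move_add {P Q : V.toAffine.Point} (p : 3 • P = 0) (q : 3 • Q = 0) :
    h.move (P + Q) = h.move P + h.move Q := by
  obtain _ | ⟨x₁, y₁, h₁⟩ := P
  · change h.move (0 + Q) = h.move 0 + h.move Q
    rw [zero_add, h.move_zero, zero_add]
  obtain _ | ⟨x₂, y₂, h₂⟩ := Q
  · change h.move (_ + 0) = _ + h.move 0
    rw [add_zero, h.move_zero, add_zero]
  by_cases hne : x₁ = x₂
  · set P := (Point.some x₁ y₁ h₁ : V.toAffine.Point)
    set Q := (Point.some x₂ y₂ h₂ : V.toAffine.Point)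
    rcases (Point.X_eq_iff (h₁ := h₁) (h₂ := h₂)).mp hne with e | e
    · change P = Q at e
      rw [← e]
      have h2 : P + P = -P := by rw [eq_neg_iff_add_eq_zero, ← p]; abel
      rw [h2, h.move_neg p, neg_eq_iff_add_eq_zero, ← h.move_three p]
      abel
    · change P = -Q at e
      rw [e, neg_add_cancel, h.move_zero, h.move_neg q, neg_add_cancel]
  · exact h.move_add_of_ne h₁ h₂ hne p q

/-- The transport as a homomorphism of 3-torsion. -/
noncomputable def Related.hom :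
    Submodule.torsionBy ℤ V.toAffine.Point (3 : ℕ) →+
      Submodule.torsionBy ℤ V'.toAffine.Point (3 : ℕ) where
  toFun P := ⟨h.move P.1, mem_three_iff.mpr (h.move_three (mem_three_iff.mp P.2))⟩
  map_zero' := Subtype.ext h.move_zero
  map_add' P Q := Subtype.ext (h.move_add (mem_three_iff.mp P.2) (mem_three_iff.mp Q.2))

theorem Related.hom_bijective : Function.Bijective h.hom := by
  have inj : Function.Injective h.hom := by
    rw [injective_iff_map_eq_zero]
    rintro ⟨P, hP⟩ h0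
    obtain _ | ⟨x, y, hns⟩ := P
    · rfl
    · have e : h.move (.some x y hns) = 0 := congrArg Subtype.val h0
      rw [h.move_some hns (qD_tOf_of_three V hns (mem_three_iff.mp hP))] at e
      exact absurd e (Point.some_ne_zero _)
  have hf : Finite (Submodule.torsionBy ℤ V'.toAffine.Point (3 : ℕ)) :=
    Nat.finite_of_card_ne_zero (by rw [natCard_three V' h.hΔ']; norm_num)
  exact (Nat.bijective_iff_injective_and_card h.hom).mpr
    ⟨inj, by rw [natCard_three V h.hΔ, natCard_three V' h.hΔ']⟩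

end Fermat.Agent.RT.Two.Twin
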