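import Fermat.Prelude.Def_EllipticCurve_FrobeniusTrace
import Fermat.Agent.Arith.Frobenius
import Fermat.Agent.EC.FrobTrace.Main
import Fermat.Agent.RT.Two.Twin.Transport

/-!
# Congruent traces along a Hessian pencil, and absence of rational roots
-/

set_option autoImplicit false

namespace Fermat.Agent.RT.Two.Twin

open WeierstrassCurve WeierstrassCurve.Affine
open scoped WeierstrassCurve.Affine

local notation "Qb" => AlgebraicClosure ℚ

theorem baseChange_c (V : WeierstrassCurve ℚ) :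
    (V⁄Qb).c₄ = (V.c₄ : Qb) ∧ (V⁄Qb).c₆ = (V.c₆ : Qb) ∧ (V⁄Qb).Δ = (V.Δ : Qb) ∧
      (V⁄Qb).b₂ = (V.b₂ : Qb) := by
  refine ⟨?_, ?_, ?_, ?_⟩ <;> simp [WeierstrassCurve.baseChange]

variable {V V' : WeierstrassCurve ℚ} {a b u : ℚ}

theorem related_qbar (hu : u ≠ 0) (h4 : u ^ 4 * V'.c₄ = q4 V.c₄ V.c₆ a b)
    (h6 : u ^ 6 * V'.c₆ = q6 V.c₄ V.c₆ a b) (hΔ : V.Δ ≠ 0) (hΔ' : V'.Δ ≠ 0) :
    Related (V⁄Qb) (V'⁄Qb) (a : Qb) (b : Qb) (u : Qb) := by
  obtain ⟨c4, c6, cΔ, -⟩ := baseChange_c V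
  obtain ⟨c4', c6', cΔ', -⟩ := baseChange_c V'
  have m4 := map_q4 (Rat.castHom Qb) V.c₄ V.c₆ a b
  have m6 := map_q6 (Rat.castHom Qb) V.c₄ V.c₆ a b
  simp only [Rat.coe_castHom] at m4 m6
  refine ⟨Rat.cast_ne_zero.mpr hu, ?_, ?_, ?_, ?_⟩
  · rw [c4', c4, c6, ← m4, ← h4]; push_cast; ring
  · rw [c6', c4, c6, ← m6, ← h6]; push_cast; ring
  · rw [cΔ]; exact Rat.cast_ne_zero.mpr hΔ
  · rw [cΔ']; exact Rat.cast_ne_zero.mpr hΔ'

theorem smul_move (h : Related (V⁄Qb) (V'⁄Qb) (a : Qb) (b : Qb) (u : Qb)) (σ : Qb ≃ₐ[ℚ] Qb)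
    {P : (V⁄Qb).toAffine.Point} (hP : 3 • P = 0) :
    h.move (σ • P) = σ • h.move P := by
  have hσP : 3 • (σ • P) = 0 := by
    have e := map_nsmul (DistribSMul.toAddMonoidHom (V⁄Qb).toAffine.Point σ) 3 P
    rw [hP, map_zero] at e
    exact e.symm
  obtain _ | ⟨x, y, hns⟩ := P
  · rfl
  · have hx := qD_tOf_of_three _ hns hP
    obtain ⟨hns', hsm⟩ : ∃ h' : (V⁄Qb).toAffine.Nonsingular (σ x) (σ y),
        σ • (Point.some x y hns : (V⁄Qb).toAffine.Point) = Point.some (σ x) (σ y) h' := by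
      rw [Point.algEquiv_smul_def, Point.map_some]
      exact ⟨_, rfl⟩
    rw [hsm] at hσP
    have hx' := qD_tOf_of_three _ hns' hσP
    obtain ⟨c4, c6, -, b2⟩ := baseChange_c V
    obtain ⟨-, -, -, b2'⟩ := baseChange_c V'
    have et : tOf (V⁄Qb) (σ x) = σ (tOf (V⁄Qb) x) := by
      simp [tOf, b2, map_ofNat]
    have eX : movX (V⁄Qb) (V'⁄Qb) (a : Qb) (b : Qb) (u : Qb) (σ x)
        = σ (movX (V⁄Qb) (V'⁄Qb) (a : Qb) (b : Qb) (u : Qb) x) := by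
      simp [movX, et, tMove, c4, c6, b2', map_ofNat]
    rw [hsm, h.move_some hns' hx', h.move_some hns hx, Point.algEquiv_smul_def, Point.map_some]
    simp only [Point.some.injEq]
    refine ⟨eX, ?_⟩
    simp only [movY, eX, et, yMove, yOf, c4, c6]
    simp [map_ofNat, WeierstrassCurve.baseChange]

/-- Members of one pencil have the same traces on 3-torsion. -/
theorem galoisTrace_eq (hu : u ≠ 0) (h4 : u ^ 4 * V'.c₄ = q4 V.c₄ V.c₆ a b)
    (h6 : u ^ 6 * V'.c₆ = q6 V.c₄ V.c₆ a b) (hΔ : V.Δ ≠ 0) (hΔ' : V'.Δ ≠ 0)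
    (σ : Qb ≃ₐ[ℚ] Qb) :
    Point.galoisTrace (K := Qb) ℚ V.toAffine 3 σ = Point.galoisTrace (K := Qb) ℚ V'.toAffine 3 σ := by
  have h := related_qbar hu h4 h6 hΔ hΔ'
  let φ := AddEquiv.ofBijective h.hom h.hom_bijective
  let φl : Submodule.torsionBy ℤ (V⁄Qb).toAffine.Point (3 : ℕ) ≃ₗ[ZMod 3]
      Submodule.torsionBy ℤ (V'⁄Qb).toAffine.Point (3 : ℕ) :=
    { φ with map_smul' := fun c x => ZMod.map_smul φ.toAddMonoidHom c x }
  rw [Point.galoisTrace_def, Point.galoisTrace_def,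
    ← LinearMap.trace_conj' (Point.galoisRepModuleEnd (K := Qb) ℚ V.toAffine 3 σ) φl]
  congr 1
  refine LinearMap.ext fun y => ?_
  obtain ⟨x, rfl⟩ := φl.surjective y
  rw [LinearEquiv.conj_apply_apply, LinearEquiv.symm_apply_apply,
    Point.galoisRepModuleEnd_apply, Point.galoisRepModuleEnd_apply]
  exact Subtype.ext (smul_move h σ (mem_three_iff.mp x.2))

/-- Congruent Frobenius traces along a Hessian pencil. -/
theorem three_dvd_ap_sub {W E : WeierstrassCurve ℤ} {x y : ℤ} {c : ℚ} (hc : c ≠ 0)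
    (h4 : c ^ 4 * E.c₄ = (q4 W.c₄ W.c₆ x y : ℤ)) (h6 : c ^ 6 * E.c₆ = (q6 W.c₄ W.c₆ x y : ℤ))
    (hΔ : W.Δ ≠ 0) (hΔ' : E.Δ ≠ 0) {ℓ : ℕ} (hℓ : ℓ.Prime) (hg : W.IsGoodPrimeFor ℓ)
    (hg' : E.IsGoodPrimeFor ℓ) (h3 : ℓ ≠ 3) : (3 : ℤ) ∣ E.apOfModel ℓ - W.apOfModel ℓ := by
  have : Fact (Nat.Prime 3) := ⟨Nat.prime_three⟩
  obtain ⟨A, hA⟩ := Arith.exists_liesOverPrime hℓ
  obtain ⟨σ, hσ⟩ := Arith.exists_isFrobeniusAt hA hℓ
  have key := galoisTrace_eq (V := W.map (Int.castRingHom ℚ)) (V' := E.map (Int.castRingHom ℚ))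
    (a := x) (b := y) hc
    (by simpa [q4] using h4) (by simpa [q6] using h6)
    (by simpa using hΔ) (by simpa using hΔ') σ
  rw [show (W.map (Int.castRingHom ℚ)).toAffine = W.map (Int.castRingHom ℚ) from rfl,
    EC.FrobTrace.galoisTrace_frobenius (p := 3) W hℓ hg h3 hA hσ,
    show (E.map (Int.castRingHom ℚ)).toAffine = E.map (Int.castRingHom ℚ) from rfl,
    EC.FrobTrace.galoisTrace_frobenius (p := 3) E hℓ hg' h3 hA hσ] at key
  exact (ZMod.intCast_zmod_eq_zero_iff_dvd _ 3).mp (by push_cast; rw [key, sub_self])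

theorem qD_ne_zero_rat {W : WeierstrassCurve ℤ} (hΔ : W.Δ ≠ 0) (hirr : W.ModRepIsIrreducible 3)
    (t : ℚ) : qD (W.c₄ : ℚ) (W.c₆ : ℚ) t 1 ≠ 0 := by
  intro ht
  set V := W.map (Int.castRingHom ℚ) with hV
  have hVΔ : (V⁄Qb).Δ ≠ 0 := by
    rw [(baseChange_c V).2.2.1]; simpa [hV] using hΔ
  obtain ⟨c4, c6, -, b2⟩ := baseChange_c V
  set x : Qb := ((t : Qb) - (V⁄Qb).b₂) / 12 with hx
  have htOf : tOf (V⁄Qb) x = (t : Qb) := by simp only [tOf, hx]; ring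
  obtain ⟨w, hw⟩ := IsAlgClosed.exists_eq_mul_self (qDx (V⁄Qb).c₄ (V⁄Qb).c₆ (t : Qb) 1 / 432)
  set y : Qb := (w - (V⁄Qb).a₁ * x - (V⁄Qb).a₃) / 2 with hy
  have hyOf : yOf (V⁄Qb) x y = w := by simp only [yOf, hy]; ring
  have hns : (V⁄Qb).toAffine.Nonsingular x y := by
    refine (Affine.equation_iff_nonsingular_of_Δ_ne_zero hVΔ).mp (equation_of_qDx _ ?_)
    rw [htOf, hyOf, sq, ← hw]; ring
  have hroot : qD (V⁄Qb).c₄ (V⁄Qb).c₆ (tOf (V⁄Qb) x) 1 = 0 := by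
    have e := map_qD (Rat.castHom Qb) (W.c₄ : ℚ) (W.c₆ : ℚ) t 1
    rw [ht, map_zero] at e
    rw [htOf, c4, c6]
    simpa [hV] using e.symm
  set P := (Point.some x y hns : (V⁄Qb).toAffine.Point) with hP
  have h3 : 3 • P = 0 := three_nsmul_of_root _ hVΔ hns hroot
  have hmem : P ∈ Submodule.torsionBy ℤ (V⁄Qb).toAffine.Point (3 : ℕ) := mem_three_iff.mpr h3
  set P' : Submodule.torsionBy ℤ (V⁄Qb).toAffine.Point (3 : ℕ) := ⟨P, hmem⟩
  have hfix : ∀ σ : Qb ≃ₐ[ℚ] Qb, σ • P' = P' ∨ σ • P' = -P' := by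
    intro σ
    obtain ⟨hns', hsm⟩ : ∃ h' : (V⁄Qb).toAffine.Nonsingular (σ x) (σ y),
        σ • P = Point.some (σ x) (σ y) h' := by
      rw [hP, Point.algEquiv_smul_def, Point.map_some]
      exact ⟨_, rfl⟩
    have hσx : σ x = x := by simp [hx, b2, map_ofNat]
    rcases (Point.X_eq_iff (h₁ := hns') (h₂ := hns)).mp hσx with e | e
    · exact Or.inl (Subtype.ext (hsm.trans e))
    · exact Or.inr (Subtype.ext (hsm.trans e))
  obtain ⟨-, hN⟩ := hirr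
  rcases hN (Submodule.span (ZMod 3) {P'}) (by
      intro σ v hv
      obtain ⟨k, rfl⟩ := Submodule.mem_span_singleton.mp hv
      rw [smul_comm]
      rcases hfix σ with e | e <;> rw [e]
      · exact Submodule.smul_mem _ k (Submodule.mem_span_singleton_self _)
      · exact Submodule.smul_mem _ k (neg_mem (Submodule.mem_span_singleton_self _))) with h | h
  · rw [Submodule.span_singleton_eq_bot] at h
    exact Point.some_ne_zero hns (congrArg Subtype.val h)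
  · have hc := natCard_three (V⁄Qb) hVΔ
    have : Nat.card (Submodule.torsionBy ℤ (V⁄Qb).toAffine.Point (3 : ℕ)) ≤ Nat.card (ZMod 3) :=
      Nat.card_le_card_of_surjective (fun k : ZMod 3 => k • P') fun v => by
        have hv : v ∈ Submodule.span (ZMod 3) {P'} := h ▸ Submodule.mem_top
        exact Submodule.mem_span_singleton.mp hv
    rw [hc, Nat.card_zmod] at this
    omega

theorem qD_ne_zero_int {W : WeierstrassCurve ℤ} (hΔ : W.Δ ≠ 0) (hirr : W.ModRepIsIrreducible 3)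
    {x y : ℤ} (h : qD W.c₄ W.c₆ x y = 0) : x = 0 ∧ y = 0 := by
  by_cases hy : y = 0
  · subst hy
    exact ⟨by simpa [qD] using h, rfl⟩
  · refine absurd ?_ (qD_ne_zero_rat hΔ hirr ((x : ℚ) / y))
    have e : qD (W.c₄ : ℚ) W.c₆ x y = 0 := by
      have := map_qD (Int.castRingHom ℚ) W.c₄ W.c₆ x y
      simpa [h] using this.symm
    have e2 := qD_smul (y : ℚ) (W.c₄ : ℚ) W.c₆ ((x : ℚ) / y) 1
    rw [mul_one, mul_div_cancel₀ _ (Int.cast_ne_zero.mpr hy), e] at e2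
    simpa [hy] using e2.symm

end Fermat.Agent.RT.Two.Twin
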