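import Fermat.Agent.RT.Two.Twin.Forms

/-!
# Elementary point counts for `p² ∣ qD`
-/

set_option autoImplicit false

namespace Fermat.Agent.RT.Two.Twin

open Finset

theorem card_cell_bound (S : Finset (ℤ × ℤ)) (A B : ℤ) (L h n : ℕ) (hh : 0 < h)
    (hS : ∀ y ∈ S, (A ≤ y.1 ∧ y.1 < A + L) ∧ (B ≤ y.2 ∧ y.2 < B + L))
    (hcell : ∀ T ⊆ S, (∀ y ∈ T, ∀ y' ∈ T, |y.1 - y'.1| < h ∧ |y.2 - y'.2| < h) → T.card ≤ n) :
    S.card ≤ (L / h + 1) ^ 2 * n := by
  set key : ℤ × ℤ → ℕ × ℕ := fun y => (((y.1 - A).toNat / h : ℕ), ((y.2 - B).toNat / h : ℕ)) with hkey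
  have himg : (S.image key) ⊆ range (L / h + 1) ×ˢ range (L / h + 1) := by
    intro k hk
    obtain ⟨y, hy, rfl⟩ := mem_image.mp hk
    obtain ⟨⟨a1, a2⟩, b1, b2⟩ := hS y hy
    simp only [hkey, mem_product, mem_range, Nat.lt_add_one_iff]
    exact ⟨Nat.div_le_div_right (by omega), Nat.div_le_div_right (by omega)⟩
  refine (card_le_mul_card_image (f := key) S n fun k hk => ?_).trans ?_
  · refine hcell _ (filter_subset _ _) fun y hy y' hy' => ?_
    obtain ⟨hyS, hyk⟩ := mem_filter.mp hy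
    obtain ⟨hyS', hyk'⟩ := mem_filter.mp hy'
    obtain ⟨⟨a1, a2⟩, b1, b2⟩ := hS y hyS
    obtain ⟨⟨a1', a2'⟩, b1', b2'⟩ := hS y' hyS'
    rw [← hyk'] at hyk
    simp only [hkey, Prod.mk.injEq] at hyk
    have main : ∀ a b : ℕ, a / h = b / h → |(a : ℤ) - b| < h := by
      intro a b hab
      have h1 := Nat.div_add_mod a h
      have h2 := Nat.div_add_mod b h
      have h3 := Nat.mod_lt a hh
      have h4 := Nat.mod_lt b hh
      rw [hab] at h1
      rw [abs_lt]; omega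
    refine ⟨?_, ?_⟩
    · have := main _ _ hyk.1
      rw [Int.toNat_of_nonneg (by omega), Int.toNat_of_nonneg (by omega)] at this
      convert this using 2; ring
    · have := main _ _ hyk.2
      rw [Int.toNat_of_nonneg (by omega), Int.toNat_of_nonneg (by omega)] at this
      convert this using 2; ring
  · rw [mul_comm n]
    refine Nat.mul_le_mul_right n ((card_le_card himg).trans ?_)
    simp [sq]

/-- A single residue class modulo `n`. -/
theorem card_congr_bound (S : Finset (ℤ × ℤ)) (A B : ℤ) (L n : ℕ) (hn : 0 < n)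
    (hS : ∀ y ∈ S, (A ≤ y.1 ∧ y.1 < A + L) ∧ (B ≤ y.2 ∧ y.2 < B + L))
    (hc : ∀ y ∈ S, ∀ y' ∈ S, (n : ℤ) ∣ y.1 - y'.1 ∧ (n : ℤ) ∣ y.2 - y'.2) :
    S.card ≤ (L / n + 1) ^ 2 := by
  refine (card_cell_bound S A B L n 1 hn hS fun T hT hd => card_le_one.mpr fun y hy y' hy' => ?_).trans
    (by rw [mul_one])
  obtain ⟨c1, c2⟩ := hc y (hT hy) y' (hT hy')
  obtain ⟨d1, d2⟩ := hd y hy y' hy'
  exact Prod.ext (sub_eq_zero.mp (Int.eq_zero_of_abs_lt_dvd c1 d1))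
    (sub_eq_zero.mp (Int.eq_zero_of_abs_lt_dvd c2 d2))

theorem card_offset_bound (T : Finset (ℤ × ℤ)) (f : ℤ × ℤ → ℤ) (h s : ℕ) (hs : 0 < s)
    (hd : ∀ y ∈ T, ∀ y' ∈ T, |f y - f y'| < h)
    (hsep : ∀ y ∈ T, ∀ y' ∈ T, |f y - f y'| < s → y = y') : T.card ≤ h / s + 1 := by
  obtain rfl | hne := T.eq_empty_or_nonempty
  · simp
  obtain ⟨y₀, hy₀, hmin⟩ := T.exists_min_image f hne
  set g : ℤ × ℤ → ℕ := fun y => (f y - f y₀).toNat / s with hg
  refine (card_le_card_of_injOn (t := range (h / s + 1)) g (fun y hy => ?_) ?_).trans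
    (card_range _).le
  · have := abs_lt.mp (hd y hy y₀ hy₀)
    simp only [hg, coe_range, Set.mem_Iio, Nat.lt_add_one_iff]
    exact Nat.div_le_div_right (by omega)
  · intro y hy y' hy' e
    refine hsep y hy y' hy' ?_
    simp only [hg] at e
    have h1 := Nat.div_add_mod (f y - f y₀).toNat s
    have h2 := Nat.div_add_mod (f y' - f y₀).toNat s
    have h3 := Nat.mod_lt (f y - f y₀).toNat hs
    have h4 := Nat.mod_lt (f y' - f y₀).toNat hs
    have h5 := hmin y hy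
    have h6 := hmin y' hy'
    rw [e] at h1
    rw [abs_lt]; omega

theorem abs_qD_le (c d x y : ℤ) (K : ℕ)
    (hK : 1 + 6 * c.natAbs + 8 * d.natAbs + 3 * c.natAbs ^ 2 ≤ K) (m : ℤ) (hx : |x| ≤ m)
    (hy : |y| ≤ m) : |qD c d x y| ≤ K * m ^ 4 := by
  have hm : 0 ≤ m := (abs_nonneg x).trans hx
  have hK' : 1 + 6 * |c| + 8 * |d| + 3 * |c| ^ 2 ≤ (K : ℤ) := by
    rw [← Int.natCast_natAbs, ← Int.natCast_natAbs]; exact_mod_cast hK
  have b4 : ∀ i j : ℕ, i + j = 4 → |x| ^ i * |y| ^ j ≤ m ^ 4 := fun i j hij => by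
    rw [← hij, pow_add]; gcongr
  calc |qD c d x y|
      ≤ |x ^ 4| + |6 * c * x ^ 2 * y ^ 2| + |8 * d * x * y ^ 3| + |3 * c ^ 2 * y ^ 4| := by
        simp only [qD]
        exact (abs_sub _ _).trans (add_le_add ((abs_sub _ _).trans
          (add_le_add (abs_sub _ _) le_rfl)) le_rfl)
    _ = |x| ^ 4 * |y| ^ 0 + 6 * |c| * (|x| ^ 2 * |y| ^ 2) + 8 * |d| * (|x| ^ 1 * |y| ^ 3)
        + 3 * |c| ^ 2 * (|x| ^ 0 * |y| ^ 4) := by
        simp only [abs_mul, abs_pow, Nat.abs_ofNat]; ring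
    _ ≤ m ^ 4 + 6 * |c| * m ^ 4 + 8 * |d| * m ^ 4 + 3 * |c| ^ 2 * m ^ 4 := by
        refine add_le_add (add_le_add (add_le_add (b4 4 0 rfl)
          (mul_le_mul_of_nonneg_left (b4 2 2 rfl) (by positivity)))
          (mul_le_mul_of_nonneg_left (b4 1 3 rfl) (by positivity)))
          (mul_le_mul_of_nonneg_left (b4 0 4 rfl) (by positivity))
    _ = (1 + 6 * |c| + 8 * |d| + 3 * |c| ^ 2) * m ^ 4 := by ring
    _ ≤ K * m ^ 4 := mul_le_mul_of_nonneg_right hK' (by positivity)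

/-- Points of one root class modulo `p²` in a square of side `L`. -/
theorem card_class_bound (c d : ℤ) (K : ℕ) (hK : 1 + 6 * c.natAbs + 8 * d.natAbs + 3 * c.natAbs ^ 2 ≤ K)
    (hD : ∀ x y : ℤ, qD c d x y = 0 → x = 0 ∧ y = 0) (p : ℕ) (hp : 2 ≤ p) (hpK : K ≤ p)
    (S : Finset (ℤ × ℤ)) (A B : ℤ) (L : ℕ)
    (hS : ∀ y ∈ S, (A ≤ y.1 ∧ y.1 < A + L) ∧ (B ≤ y.2 ∧ y.2 < B + L))
    (hz : ∀ y ∈ S, ∀ y' ∈ S, (p : ℤ) ^ 2 ∣ qD c d (y'.1 - y.1) (y'.2 - y.2))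
    (hdet : ∀ y ∈ S, ∀ y' ∈ S, ∀ y'' ∈ S, (p : ℤ) ^ 2 ∣
      (y'.1 - y.1) * (y''.2 - y.2) - (y'.2 - y.2) * (y''.1 - y.1)) :
    S.card ≤ (L / (p / 2) + 1) ^ 2 * (p / 2 / Nat.sqrt (p / K) + 1) := by
  set h := p / 2 with hh
  set s := Nat.sqrt (p / K) with hs
  have hK0 : 0 < K := lt_of_lt_of_le (by omega) hK
  have hs0 : 0 < s := Nat.sqrt_pos.mpr (Nat.div_pos hpK hK0)
  have hh0 : 0 < h := by omega
  have hshort : ∀ z1 z2 : ℤ, |z1| < s → |z2| < s → (p : ℤ) ^ 2 ∣ qD c d z1 z2 →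
      z1 = 0 ∧ z2 = 0 := by
    intro z1 z2 h1 h2 hdvd
    by_contra hne
    have hq : qD c d z1 z2 ≠ 0 := fun e => hne (hD _ _ e)
    have hle := Int.le_of_dvd (abs_pos.mpr hq) ((dvd_abs _ _).mpr hdvd)
    have hb := abs_qD_le c d z1 z2 K hK (max |z1| |z2|) (le_max_left _ _) (le_max_right _ _)
    have hms : max |z1| |z2| < (s : ℤ) := max_lt h1 h2
    have hlt : max |z1| |z2| ^ 4 < (s : ℤ) ^ 4 :=
      pow_lt_pow_left₀ hms ((abs_nonneg z1).trans (le_max_left _ _)) (by norm_num)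
    have hs2 : (s : ℤ) ^ 2 * K ≤ p := by
      have : s ^ 2 * K ≤ p :=
        (Nat.mul_le_mul_right K (Nat.sqrt_le' _)).trans (Nat.div_mul_le_self p K)
      exact_mod_cast this
    have hsq : ((s : ℤ) ^ 2 * K) ^ 2 ≤ (p : ℤ) ^ 2 := pow_le_pow_left₀ (by positivity) hs2 2
    have hK1 : (1 : ℤ) ≤ K := by exact_mod_cast hK0
    nlinarith [pow_nonneg (Int.natCast_nonneg s) 4, mul_le_mul_of_nonneg_left hK1
      (mul_nonneg (Int.natCast_nonneg K) (pow_nonneg (Int.natCast_nonneg s) 4))]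
  refine card_cell_bound S A B L h _ hh0 hS fun T hT hd => ?_
  have hpar : ∀ y ∈ T, ∀ y' ∈ T, ∀ y'' ∈ T,
      (y'.1 - y.1) * (y''.2 - y.2) = (y'.2 - y.2) * (y''.1 - y.1) := by
    intro y hy y' hy' y'' hy''
    refine sub_eq_zero.mp (Int.eq_zero_of_abs_lt_dvd (hdet y (hT hy) y' (hT hy') y'' (hT hy'')) ?_)
    obtain ⟨u1, u2⟩ := hd y' hy' y hy
    obtain ⟨w1, w2⟩ := hd y'' hy'' y hy
    have hhp : (2 * h : ℤ) ≤ p := by omega
    refine (abs_sub _ _).trans_lt ?_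
    rw [abs_mul, abs_mul]
    have := mul_lt_mul'' u1 w2 (abs_nonneg _) (abs_nonneg _)
    have := mul_lt_mul'' u2 w1 (abs_nonneg _) (abs_nonneg _)
    nlinarith
  by_cases hall : ∀ y ∈ T, ∀ y' ∈ T, y = y'
  · exact (card_le_one.mpr hall).trans (Nat.le_add_left _ _)
  simp only [not_forall] at hall
  obtain ⟨a, ha, b, hb, hab⟩ := hall
  have key : ∀ y ∈ T, ∀ y' ∈ T, (b.1 - a.1) * (y'.2 - y.2) = (b.2 - a.2) * (y'.1 - y.1) := by
    intro y hy y' hy'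
    have e1 := hpar a ha b hb y hy
    have e2 := hpar a ha b hb y' hy'
    linear_combination e2 - e1
  rcases le_total |b.2 - a.2| |b.1 - a.1| with hle | hle
  · refine card_offset_bound T Prod.fst h s hs0 (fun y hy y' hy' => (hd y hy y' hy').1) ?_
    intro y hy y' hy' hlt
    have e := congrArg abs (key y hy y' hy')
    rw [abs_mul, abs_mul] at e
    have hne : 0 < |b.1 - a.1| := by
      refine lt_of_le_of_ne (abs_nonneg _) fun e0 => hab ?_
      have h2 : |b.2 - a.2| = 0 := le_antisymm (e0 ▸ hle) (abs_nonneg _)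
      rw [eq_comm, abs_eq_zero, sub_eq_zero] at e0
      rw [abs_eq_zero, sub_eq_zero] at h2
      exact Prod.ext e0.symm h2.symm
    have hle2 : |y'.2 - y.2| ≤ |y'.1 - y.1| := by
      refine le_of_mul_le_mul_left ?_ hne
      rw [e]; exact mul_le_mul_of_nonneg_right hle (abs_nonneg _)
    rw [abs_sub_comm] at hlt
    obtain ⟨z1, z2⟩ := hshort _ _ hlt (hle2.trans_lt hlt) (hz y (hT hy) y' (hT hy'))
    exact (Prod.ext (sub_eq_zero.mp z1) (sub_eq_zero.mp z2)).symm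
  · refine card_offset_bound T Prod.snd h s hs0 (fun y hy y' hy' => (hd y hy y' hy').2) ?_
    intro y hy y' hy' hlt
    have e := congrArg abs (key y hy y' hy')
    rw [abs_mul, abs_mul] at e
    have hne : 0 < |b.2 - a.2| := by
      refine lt_of_le_of_ne (abs_nonneg _) fun e0 => hab ?_
      have h2 : |b.1 - a.1| = 0 := le_antisymm (e0 ▸ hle) (abs_nonneg _)
      rw [eq_comm, abs_eq_zero, sub_eq_zero] at e0
      rw [abs_eq_zero, sub_eq_zero] at h2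
      exact Prod.ext h2.symm e0.symm
    have hle2 : |y'.1 - y.1| ≤ |y'.2 - y.2| := by
      refine le_of_mul_le_mul_left ?_ hne
      rw [← e]; exact mul_le_mul_of_nonneg_right hle (abs_nonneg _)
    rw [abs_sub_comm] at hlt
    obtain ⟨z1, z2⟩ := hshort _ _ (hle2.trans_lt hlt) hlt (hz y (hT hy) y' (hT hy'))
    exact (Prod.ext (sub_eq_zero.mp z1) (sub_eq_zero.mp z2)).symm

end Fermat.Agent.RT.Two.Twin
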