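import Fermat.Agent.Switch.Three
import Fermat.Agent.RT.Two.Twin.Forms

/-!
# Curves of a Hessian pencil have the same 3-torsion

The map of nonzero 3-torsion points is given by explicit formulas; it is additive since it sends
collinear triples to collinear triples.
-/

set_option autoImplicit false

namespace Fermat.Agent.RT.Two.Twin

open WeierstrassCurve WeierstrassCurve.Affine Polynomial

variable {K : Type*} [Field K]

/-- The abscissa of the short model, up to a constant. -/
def tOf (V : WeierstrassCurve K) (x : K) : K := 12 * x + V.b₂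

/-- The ordinate of the short model, up to a constant. -/
def yOf (V : WeierstrassCurve K) (x y : K) : K := 2 * y + V.a₁ * x + V.a₃

theorem four_thirty_two_yOf_sq (V : WeierstrassCurve K) {x y : K} (h : V.toAffine.Equation x y) :
    432 * yOf V x y ^ 2 = qDx V.c₄ V.c₆ (tOf V x) 1 := by
  rw [Affine.equation_iff] at h
  simp only [qDx, tOf, yOf, WeierstrassCurve.c₄, WeierstrassCurve.c₆, WeierstrassCurve.b₂,
    WeierstrassCurve.b₄, WeierstrassCurve.b₆]
  linear_combination 1728 * h

theorem equation_of_qDx [CharZero K] (V : WeierstrassCurve K) {x y : K}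
    (h : 432 * yOf V x y ^ 2 = qDx V.c₄ V.c₆ (tOf V x) 1) : V.toAffine.Equation x y := by
  rw [Affine.equation_iff]
  simp only [qDx, tOf, yOf, WeierstrassCurve.c₄, WeierstrassCurve.c₆, WeierstrassCurve.b₂,
    WeierstrassCurve.b₄, WeierstrassCurve.b₆] at h
  linear_combination h / 1728

theorem yOf_negY (V : WeierstrassCurve K) (x y : K) :
    yOf V x (V.toAffine.negY x y) = -yOf V x y := by
  simp only [yOf, Affine.negY]; ring

theorem qD_tOf_of_three [CharZero K] [DecidableEq K] (V : WeierstrassCurve K) {x y : K}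
    (h : V.toAffine.Nonsingular x y)
    (h3 : (3 : ℕ) • (Point.some x y h : V.toAffine.Point) = 0) :
    qD V.c₄ V.c₆ (tOf V x) 1 = 0 := by
  have e := Switch.quartic_short V x
  rw [Switch.three_torsion_quartic V h h3, mul_zero] at e
  have : 243 * qD V.c₄ V.c₆ (tOf V x) 1 = 0 := by
    rw [← e]; simp only [qD, tOf, Switch.quartic]; ring
  simpa using this

theorem natCard_three [CharZero K] [IsAlgClosed K] [DecidableEq K] (V : WeierstrassCurve K)
    (hΔ : V.Δ ≠ 0) : Nat.card (Submodule.torsionBy ℤ V.toAffine.Point (3 : ℕ)) = 9 := by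
  have : V.IsElliptic := ⟨isUnit_iff_ne_zero.mpr hΔ⟩
  rw [EC.Torsion.natCard_torsionBy V.toAffine (n := 3) (by norm_num)]
  norm_num

theorem mem_three_iff [DecidableEq K] {V : WeierstrassCurve K} {P : V.toAffine.Point} :
    P ∈ Submodule.torsionBy ℤ V.toAffine.Point (3 : ℕ) ↔ (3 : ℕ) • P = 0 := by
  rw [Submodule.mem_torsionBy_iff, natCast_zsmul]

/-- A root of the third division polynomial is the abscissa of a point of order three. -/
theorem three_nsmul_of_root [CharZero K] [IsAlgClosed K] [DecidableEq K] (V : WeierstrassCurve K)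
    (hΔ : V.Δ ≠ 0) {x y : K} (h : V.toAffine.Nonsingular x y)
    (hx : qD V.c₄ V.c₆ (tOf V x) 1 = 0) :
    (3 : ℕ) • (Point.some x y h : V.toAffine.Point) = 0 := by
  classical
  set T := Submodule.torsionBy ℤ V.toAffine.Point (3 : ℕ)
  have hfin : Finite T := Nat.finite_of_card_ne_zero (by rw [natCard_three V hΔ]; norm_num)
  have : Fintype T := Fintype.ofFinite T
  set p : K[X] := X ^ 4
    - (Polynomial.C (6 * V.c₄) * X ^ 2 + Polynomial.C (8 * V.c₆) * X
      + Polynomial.C (3 * V.c₄ ^ 2)) with hp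
  have hev : ∀ t, p.eval t = qD V.c₄ V.c₆ t 1 := fun t => by
    simp only [hp, eval_sub, eval_add, eval_mul, eval_C, eval_pow, eval_X, qD]
    ring
  have hlow : (Polynomial.C (6 * V.c₄) * X ^ 2 + Polynomial.C (8 * V.c₆) * X
      + Polynomial.C (3 * V.c₄ ^ 2)).degree < ((4 : ℕ) : WithBot ℕ) :=
    degree_quadratic_le.trans_lt (by norm_num)
  have hmon : p.Monic := monic_X_pow_sub hlow
  have hp0 : p ≠ 0 := hmon.ne_zero
  have hdeg : p.natDegree ≤ 4 := by
    rw [natDegree_le_iff_degree_le, hp]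
    refine (degree_sub_le _ _).trans (max_le ?_ hlow.le)
    rw [degree_X_pow]
  set R := p.roots.toFinset.image fun t => (t - V.b₂) / 12 with hR
  have hRcard : R.card ≤ 4 := Finset.card_image_le.trans
    ((Multiset.toFinset_card_le _).trans ((p.card_roots').trans hdeg))
  have hmemR : ∀ z, qD V.c₄ V.c₆ (tOf V z) 1 = 0 → z ∈ R := fun z hz => by
    rw [hR, Finset.mem_image]
    exact ⟨tOf V z, by simp [hp0, IsRoot.def, hev, hz], by simp [tOf]⟩
  let X' : T → K := fun P => match P.1 with
    | .zero => 0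
    | .some a _ _ => a
  set S : Finset T := Finset.univ.erase 0 with hS
  have hScard : S.card = 8 := by
    rw [hS, Finset.card_erase_of_mem (Finset.mem_univ _), Finset.card_univ,
      ← Nat.card_eq_fintype_card, natCard_three V hΔ]
  have hmaps : ∀ P ∈ S, X' P ∈ R := by
    rintro ⟨P, hP⟩ hne
    obtain _ | ⟨a, b, hab⟩ := P
    · exact absurd rfl (Finset.ne_of_mem_erase hne)
    · exact hmemR _ (qD_tOf_of_three V hab (mem_three_iff.mp hP))
  have hfib : ∀ z ∈ S.image X', (S.filter fun P => X' P = z).card ≤ 2 := by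
    intro z hz
    obtain ⟨P₀, hP₀, rfl⟩ := Finset.mem_image.mp hz
    refine (Finset.card_le_card (t := {P₀, -P₀}) ?_).trans Finset.card_le_two
    intro P hP
    obtain ⟨hPS, hPz⟩ := Finset.mem_filter.mp hP
    obtain ⟨Q₀, hQ₀⟩ := P₀
    obtain ⟨Q, hQ⟩ := P
    obtain _ | ⟨a, b, hab⟩ := Q
    · exact absurd rfl (Finset.ne_of_mem_erase hPS)
    obtain _ | ⟨a₀, b₀, hab₀⟩ := Q₀
    · exact absurd rfl (Finset.ne_of_mem_erase hP₀)
    simp only [Finset.mem_insert, Finset.mem_singleton, Subtype.ext_iff, NegMemClass.coe_neg]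
    rcases Y_eq_of_X_eq hab.1 hab₀.1 hPz with e | e
    · exact Or.inl (by simp only [Point.some.injEq]; exact ⟨hPz, e⟩)
    · refine Or.inr ?_
      rw [Point.neg_some]
      simp only [Point.some.injEq]
      exact ⟨hPz, e⟩
  have hbig : 4 ≤ (S.image X').card := by
    have := Finset.card_le_mul_card_image S 2 hfib
    omega
  have himg : S.image X' = R :=
    Finset.eq_of_subset_of_card_le (Finset.image_subset_iff.mpr hmaps) (hRcard.trans hbig)
  obtain ⟨⟨Q, hQ⟩, hQS, hQx⟩ := Finset.mem_image.mp (himg.symm ▸ hmemR x hx : x ∈ S.image X')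
  obtain _ | ⟨a, b, hab⟩ := Q
  · exact absurd rfl (Finset.ne_of_mem_erase hQS)
  have hax : x = a := hQx.symm
  subst hax
  rcases Y_eq_of_X_eq h.1 hab.1 rfl with e | e
  · subst e; exact mem_three_iff.mp hQ
  · have : (Point.some x y h : V.toAffine.Point) = -Point.some x b hab := by
      rw [Point.neg_some]; simp only [Point.some.injEq]; exact ⟨trivial, e⟩
    rw [this, smul_neg, mem_three_iff.mp hQ, neg_zero]

/-- Three collinear points with distinct abscissae: the third is minus the sum of the others. -/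
theorem add_eq_of_collinear [DecidableEq K] {V : WeierstrassCurve K} {x₁ x₂ x₃ y₁ y₂ y₃ : K}
    (h₁ : V.toAffine.Nonsingular x₁ y₁) (h₂ : V.toAffine.Nonsingular x₂ y₂)
    (h₃ : V.toAffine.Nonsingular x₃ y₃) (h12 : x₁ ≠ x₂) (h31 : x₃ ≠ x₁) (h32 : x₃ ≠ x₂)
    (hc : (x₂ - x₃) * y₁ + (x₃ - x₁) * y₂ + (x₁ - x₂) * y₃ = 0) :
    (Point.some x₁ y₁ h₁ : V.toAffine.Point) + Point.some x₂ y₂ h₂ + Point.some x₃ y₃ h₃ = 0 := by
  set L := V.toAffine.slope x₁ x₂ y₁ y₂ with hL
  have hsl : (linePolynomial x₁ y₁ L).eval x₃ = y₃ := by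
    have hne : x₁ - x₂ ≠ 0 := sub_ne_zero.mpr h12
    rw [hL, Affine.slope_of_X_ne h12, linePolynomial]
    simp only [eval_add, eval_mul, eval_C, eval_sub, eval_X]
    field_simp
    linear_combination -hc
  have h0 : (V.toAffine.addPolynomial x₁ y₁ L).eval x₃ = 0 := by
    have e := (Affine.equation_iff ..).mp h₃.1
    rw [← hsl, linePolynomial] at e
    simp only [eval_add, eval_mul, eval_C, eval_sub, eval_X] at e
    rw [Affine.addPolynomial_eq, eval_neg, Cubic.toPoly]
    simp only [eval_add, eval_mul, eval_C, eval_pow, eval_X]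
    linear_combination e
  rw [hL, Affine.addPolynomial_slope h₁.1 h₂.1 fun h => h12 h.1] at h0
  simp only [eval_neg, eval_mul, eval_sub, eval_X, eval_C, neg_eq_zero, mul_eq_zero,
    sub_eq_zero, h31, h32, false_or] at h0
  have hy : V.toAffine.negAddY x₁ x₂ y₁ (V.toAffine.slope x₁ x₂ y₁ y₂) = y₃ := by
    rw [Affine.negAddY, ← h0, ← hsl, hL, linePolynomial]
    simp [mul_comm]
  rw [Point.add_of_X_ne h12, ← eq_neg_iff_add_eq_zero, Point.neg_some]
  simp only [Point.some.injEq]
  exact ⟨h0.symm, by rw [Affine.addY, hy, ← h0]⟩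

end Fermat.Agent.RT.Two.Twin
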